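import Fermat.Agent.S55.K.GO3H535.Spec

/-!
# S55 / K / GO3 (helper535): basic lemmas

* evaluation of `Ind_V A` at a coset, equivariance for the stabiliser;
* the K-I3 remark in degrees 1 and 2 for an arbitrary group with a normal subgroup;
* the conjugation homotopy for 2-cocycles.
-/

set_option autoImplicit false

noncomputable section

namespace Fermat.Agent.S55.K.GO3H535

open groupCohomology Fermat.Agent.S55.PT Fermat.Agent.S55.Bridge

section Ev

variable {k : Type} [CommRing k] {G H : Type} [Group G] [Group H]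

/-- evaluation `Ind_V A → A` at a coset, for general `ind φ V A`. -/
def evC (φ : H →* G) (V : Subgroup G) (A : Rep.{0, 0, 0} k H) (c : G ⧸ V) : ind φ V A →ₗ[k] A :=
  Finsupp.lapply c

lemma evC_apply (φ : H →* G) (V : Subgroup G) (A : Rep.{0, 0, 0} k H) (c : G ⧸ V)
    (f : (G ⧸ V) →₀ A) : evC φ V A c f = f c := rfl

lemma evC_ρ (φ : H →* G) (V : Subgroup G) (A : Rep.{0, 0, 0} k H) (h : H) (c : G ⧸ V)
    (f : ind φ V A) :
    evC φ V A (φ h • c) ((ind φ V A).ρ h f) = A.ρ h (evC φ V A c f) := by
  have hinj : Function.Injective (fun x : G ⧸ V => φ h • x) := MulAction.injective (φ h)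
  show (Finsupp.mapDomain (fun x : G ⧸ V => φ h • x)
    (Finsupp.mapRange (A.ρ h) (map_zero _) (f : (G ⧸ V) →₀ A))) (φ h • c) = _
  rw [Finsupp.mapDomain_apply hinj, Finsupp.mapRange_apply]
  rfl

lemma evC_ρ_of_fixed (φ : H →* G) (V : Subgroup G) (A : Rep.{0, 0, 0} k H) (h : H) (c : G ⧸ V)
    (hc : φ h • c = c) (f : ind φ V A) :
    evC φ V A c ((ind φ V A).ρ h f) = A.ρ h (evC φ V A c f) := by
  have := evC_ρ φ V A h c f
  rwa [hc] at this

end Ev

section Homotopy

variable {k : Type} [CommRing k] {G : Type} [Group G] {A : Rep.{0, 0, 0} k G}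

/-- the conjugation homotopy `k_g(a) = x(g a g⁻¹, g) - x(g, a)` -/
def conjHom (x : G × G → A) (g : G) (a : G) : A := x (g * a * g⁻¹, g) - x (g, a)

/-- `x(ā, b̄) = g x(a,b) + ā k(b) - k(ab) + k(a)` for a 2-cocycle `x`. -/
lemma conj_homotopy (x : G × G → A) (hx : x ∈ cocycles₂ A) (g a b : G) :
    x (g * a * g⁻¹, g * b * g⁻¹) =
      A.ρ g (x (a, b)) + A.ρ (g * a * g⁻¹) (conjHom x g b) - conjHom x g (a * b) +
        conjHom x g a := by
  have hc := (mem_cocycles₂_iff x).1 hx
  have h1 := hc (g * a * g⁻¹) (g * b * g⁻¹) g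
  have h2 := hc (g * a * g⁻¹) g b
  have h3 := hc g a b
  have e1 : g * a * g⁻¹ * (g * b * g⁻¹) = g * (a * b) * g⁻¹ := by group
  have e2 : g * b * g⁻¹ * g = g * b := by group
  have e3 : g * a * g⁻¹ * g = g * a := by group
  rw [e1, e2] at h1
  rw [e3] at h2
  unfold conjHom
  rw [map_sub]
  linear_combination (norm := module) h1 - h2 + h3 

end Homotopy

section KI3

variable {k : Type} [CommRing k] {G : Type} [Group G] {A : Rep.{0, 0, 0} k G}

/-- K-I3, degree 2: the values of a 2-cocycle which is right-invariant modulo a normal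
subgroup `N` are `N`-invariant. -/
lemma cocycle₂_values_fixed (x : G × G → A) (hx : x ∈ cocycles₂ A) (N : Subgroup G) [N.Normal]
    (hN : ∀ g g' s s' : G, s ∈ N → s' ∈ N → x (g * s, g' * s') = x (g, g'))
    (u : G) (hu : u ∈ N) (a b : G) : A.ρ u (x (a, b)) = x (a, b) := by
  have hc := (mem_cocycles₂_iff x).1 hx
  have h1 := hc u a b
  have h2 := hc 1 1 (a * b)
  have h3 := hc 1 1 a
  have e1 : x (u * a, b) = x (a, b) := by
    have hmem : a⁻¹ * u * a ∈ N := by
      have := Subgroup.Normal.conj_mem ‹N.Normal› u hu a⁻¹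
      simpa using this
    have := hN a b (a⁻¹ * u * a) 1 hmem N.one_mem
    rw [mul_one] at this
    rw [← this]
    congr 2
    group
  have e2 : ∀ w, x (u, w) = x (1, w) := by
    intro w
    have := hN 1 w u 1 hu N.one_mem
    rwa [one_mul, mul_one] at this
  have e3 : ∀ w, x (1, w) = x (1, 1) := by
    intro w
    have h := hc 1 1 w
    simp only [one_mul, map_one, Module.End.one_apply] at h
    exact (add_left_cancel h).symm ▸ rfl
  rw [e1, e2, e2, e3 (a * b), e3 a] at h1
  exact (add_right_cancel h1).symm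

/-- K-I3, degree 1: the values of a 1-cochain `z` which is right-invariant modulo a normal
subgroup `N` and whose coboundary is right-invariant modulo `N` in the first variable are
`N`-invariant. -/
lemma cochain₁_values_fixed (z : G → A) (N : Subgroup G) [N.Normal]
    (hz : ∀ g s : G, s ∈ N → z (g * s) = z g)
    (hdz : ∀ g g' s : G, s ∈ N → (d₁₂ A).hom z (g * s, g') = (d₁₂ A).hom z (g, g'))
    (u : G) (hu : u ∈ N) (a : G) : A.ρ u (z a) = z a := by
  have h1 := hdz 1 a u hu
  rw [d₁₂_hom_apply, d₁₂_hom_apply] at h1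
  simp only [one_mul, map_one, Module.End.one_apply] at h1
  have e1 : z (u * a) = z a := by
    have hmem : a⁻¹ * u * a ∈ N := by
      have := Subgroup.Normal.conj_mem ‹N.Normal› u hu a⁻¹
      simpa using this
    have := hz a (a⁻¹ * u * a) hmem
    rw [← this]
    congr 1
    group
  have e2 : z u = z 1 := by
    have := hz 1 u hu
    rwa [one_mul] at this
  rw [e1, e2] at h1
  linear_combination (norm := module) h1

end KI3

end Fermat.Agent.S55.K.GO3H535

end
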