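import Fermat.Agent.S55.K.GO3H535.Spec
import Fermat.Agent.S55.Bridge.SUnitDict
import Fermat.Agent.S55.Bridge.SUnitsDiv
import Fermat.Agent.S55.Bridge.Level
import Fermat.Agent.S55.G.ClsH604
import Fermat.Agent.S55.PT.LevelsNormal

/-!
# S55 / layer K / GO3, arithmetic leaf GO3-CAPDIV (helper510)

`capDiv : CapDivSpec p S` (exact type of `K/GO3H535/Spec.lean`).

Proof (as in the docstring of `CapDivSpec`, but with the class group of the big field `F`):
`F/ℚ` finite Galois, unramified outside `S`, containing `β` and the field of `V`;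
`d = div^S_F(β)`; `d = E₀ + p D₁` with `E₀` invariant under `H = Gal(F/K)`;
`h D₁ = div^S(κ)` (finiteness of the class group), `h = p^a h'`, `p ∤ h'`;
`δ = κ^(1/p^a)` is `S`-smooth (Kummer, `p ∈ S`); `α = δ^r β^s` with `r h' + s p = 1`.
-/

set_option autoImplicit false
set_option linter.unusedSectionVars false
set_option linter.style.haveILetI false

noncomputable section

namespace Fermat.Agent.S55.K.GO3H535.H510

open Fermat.Agent.S55.PT Fermat.Agent.S55.Bridge Fermat.Agent.S55.K Fermat.Agent.S55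
open IsDedekindDomain NumberField

attribute [local instance] isAlgebraic_Qbar isGalois_Qbar H594.numberField_of_finite

/-! ## 1. Valuation subrings of `ℚ̄` -/

section Val

variable (S : Finset Nat.Primes)

/-- a valuation subring lying over a prime `q ∉ S` is outside `S` -/
lemma outsideS_of_liesOver {q : Nat.Primes} (hq : q ∉ S) {A : ValuationSubring Qbar}
    (hA : A.LiesOverPrime (q : ℕ)) : OutsideS S A := by
  intro q' hq' hA'
  have hne : (q : ℕ) ≠ (q' : ℕ) := by
    intro h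
    apply hq
    have : q = q' := Subtype.ext h
    rw [this]
    exact hq'
  have h1 := val_prime_eq_one (A := A) hA q.2 q'.2 hne
  have h2 : A.valuation ((q' : ℕ) : Qbar) < 1 := (A.mem_nonunits_iff).mp hA'
  rw [h1] at h2
  exact lt_irrefl _ h2

/-- membership of a unit and its inverse, in valuation form -/
lemma mem_and_inv_mem_iff (A : ValuationSubring Qbar) (x : Qbarˣ) :
    ((x : Qbar) ∈ A ∧ ((x⁻¹ : Qbarˣ) : Qbar) ∈ A) ↔ A.valuation (x : Qbar) = 1 := by
  have hx0 : A.valuation (x : Qbar) ≠ 0 := (A.valuation).ne_zero_iff.2 x.ne_zero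
  constructor
  · rintro ⟨h1, h2⟩
    have h3 : A.valuation (x : Qbar) ≤ 1 := (A.valuation_le_one_iff _).2 h1
    have h4 : A.valuation ((x⁻¹ : Qbarˣ) : Qbar) ≤ 1 := (A.valuation_le_one_iff _).2 h2
    rw [Units.val_inv_eq_inv_val, map_inv₀] at h4
    exact le_antisymm h3 ((inv_le_one₀ (zero_lt_iff.2 hx0)).1 h4)
  · intro h
    refine ⟨(A.valuation_le_one_iff _).1 h.le, (A.valuation_le_one_iff _).1 ?_⟩
    rw [Units.val_inv_eq_inv_val, map_inv₀, h, inv_one]

/-- the valuation of an `S`-unit at a place over `q ∉ S` is `1` -/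
lemma val_eq_one_of_isSUnit {x : Qbarˣ} (hx : IsSUnit S x) {q : Nat.Primes} (hq : q ∉ S)
    {A : ValuationSubring Qbar} (hA : A.LiesOverPrime (q : ℕ)) :
    A.valuation (x : Qbar) = 1 :=
  (mem_and_inv_mem_iff A x).1 (hx A (outsideS_of_liesOver S hq hA))

/-- if no prime number is a non-unit of `A`, every nonzero natural number has valuation `1` -/
lemma val_natCast_eq_one_of_forall {A : ValuationSubring Qbar}
    (h : ∀ q : ℕ, q.Prime → ¬ A.LiesOverPrime q) (n : ℕ) (hn : n ≠ 0) :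
    A.valuation (n : Qbar) = 1 := by
  induction n using Nat.recOnMul with
  | zero => exact absurd rfl hn
  | one => simp
  | prime q hq =>
    have h1 : A.valuation ((q : ℕ) : Qbar) ≤ 1 := by
      have := val_intCast_le_one (A := A) (q : ℤ)
      rwa [Int.cast_natCast] at this
    have h2 : ¬ A.valuation ((q : ℕ) : Qbar) < 1 := fun hlt =>
      h q hq ((A.mem_nonunits_iff).2 hlt)
    exact le_antisymm h1 (not_lt.1 h2)
  | mul a b ha hb =>
    have ha0 : a ≠ 0 := fun h0 => hn (by rw [h0, zero_mul])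
    have hb0 : b ≠ 0 := fun h0 => hn (by rw [h0, mul_zero])
    rw [Nat.cast_mul, map_mul, ha ha0, hb hb0, one_mul]

/-- a valuation subring of `ℚ̄` over no prime number is everything -/
lemma mem_of_forall_not_liesOver {A : ValuationSubring Qbar}
    (h : ∀ q : ℕ, q.Prime → ¬ A.LiesOverPrime q) (y : Qbar) : y ∈ A := by
  have hy : IsAlgebraic ℤ y :=
    (IsFractionRing.isAlgebraic_iff ℤ ℚ Qbar).2 (isAlgebraic_Qbar.isAlgebraic y)
  obtain ⟨n, hn, hint⟩ := hy.exists_integral_multiple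
  have h1 : (n • y : Qbar) ∈ A := Fermat.Agent.S54.isIntegral_mem_valuationSubring A hint
  have h2 : A.valuation ((n.natAbs : ℕ) : Qbar) = 1 :=
    val_natCast_eq_one_of_forall h n.natAbs (Int.natAbs_ne_zero.2 hn)
  have h3 : A.valuation ((n : ℤ) : Qbar) = 1 := by
    rcases Int.natAbs_eq n with h' | h'
    · rw [h']; simpa using h2
    · rw [h', Int.cast_neg, Valuation.map_neg]; simpa using h2
  rw [← A.valuation_le_one_iff] at h1 ⊢
  rw [zsmul_eq_mul, map_mul, h3, one_mul] at h1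
  exact h1

/-- an element which is a unit at all places over primes outside `S` is an `S`-unit -/
lemma isSUnit_of_forall_liesOver {x : Qbarˣ}
    (hx : ∀ q : Nat.Primes, q ∉ S → ∀ A : ValuationSubring Qbar, A.LiesOverPrime (q : ℕ) →
      A.valuation (x : Qbar) = 1) : IsSUnit S x := by
  intro A hA
  by_cases h : ∃ q : ℕ, q.Prime ∧ A.LiesOverPrime q
  · obtain ⟨q, hq, hAq⟩ := h
    have hqS : (⟨q, hq⟩ : Nat.Primes) ∉ S := fun hmem => hA ⟨q, hq⟩ hmem hAq
    exact (mem_and_inv_mem_iff A x).2 (hx ⟨q, hq⟩ hqS A hAq)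
  · have h' : ∀ q : ℕ, q.Prime → ¬ A.LiesOverPrime q := fun q hq hAq => h ⟨q, hq, hAq⟩
    exact ⟨mem_of_forall_not_liesOver h' _, mem_of_forall_not_liesOver h' _⟩

/-- valuation of a prime at a place over it -/
lemma val_prime_lt_one {A : ValuationSubring Qbar} {q : ℕ} (hA : A.LiesOverPrime q) :
    A.valuation ((q : ℕ) : Qbar) < 1 := (A.mem_nonunits_iff).mp hA

lemma val_prime_ne_zero {A : ValuationSubring Qbar} {q : ℕ} (hq : q.Prime) :
    A.valuation ((q : ℕ) : Qbar) ≠ 0 :=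
  (A.valuation).ne_zero_iff.2 (by exact_mod_cast hq.ne_zero)

/-- uniqueness of the order: `v(q)^n = v(q)^m → n = m`. -/
lemma zpow_val_prime_injective {A : ValuationSubring Qbar} {q : ℕ} (hq : q.Prime)
    (hA : A.LiesOverPrime q) {n m : ℤ}
    (h : A.valuation ((q : ℕ) : Qbar) ^ n = A.valuation ((q : ℕ) : Qbar) ^ m) : n = m := by
  have h0 : 0 < A.valuation ((q : ℕ) : Qbar) := zero_lt_iff.2 (val_prime_ne_zero hq)
  exact zpow_right_injective₀ h0 (val_prime_lt_one hA).ne h

/-- the value group is torsion-free -/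
lemma val_eq_one_of_pow {A : ValuationSubring Qbar} {x : Qbar} {k : ℕ} (hk : k ≠ 0)
    (h : A.valuation x ^ k = 1) : A.valuation x = 1 :=
  (pow_eq_one_iff_of_nonneg zero_le hk).1 h

end Val

/-! ## 2. Finite level: primes of `𝓞 F` and the order of `q` -/

section Level

variable {S : Finset Nat.Primes} (F : IntermediateField ℚ Qbar) [FiniteDimensional ℚ F]
  [IsGalois ℚ F]

/-- the height one prime `(q)` of `ℤ` -/
def intPrime (q : ℕ) (hq : q.Prime) : HeightOneSpectrum ℤ where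
  asIdeal := Ideal.span {(q : ℤ)}
  isPrime := (Ideal.span_singleton_prime (by exact_mod_cast hq.ne_zero)).2
    (Nat.prime_iff_prime_int.mp hq)
  ne_bot := by
    rw [Ne, Ideal.span_singleton_eq_bot]
    exact_mod_cast hq.ne_zero

/-- **(R)** In a finite Galois extension unramified outside `S`, a prime `q ∉ S` is a
uniformiser at every prime above it. -/
theorem valuation_prime_eq (hF : F.IsUnramifiedOutside S) (q : Nat.Primes) (hq : q ∉ S)
    (w : HeightOneSpectrum (𝓞 F)) (hw : ((q : ℕ) : 𝓞 F) ∈ w.asIdeal) :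
    w.valuation F ((q : ℕ) : F) = WithZero.exp (-1 : ℤ) := by
  haveI hgal : IsGaloisGroup (F ≃ₐ[ℚ] F) ℤ (𝓞 F) :=
    IsGaloisGroup.of_isFractionRing (F ≃ₐ[ℚ] F) ℤ (𝓞 F) ℚ F
  haveI := H594.liesOver_span_of_natCast_mem F q.2 w.asIdeal hw
  haveI : w.asIdeal.LiesOver (intPrime q q.2).asIdeal := this
  have he : (intPrime q q.2).asIdeal.ramificationIdx' w.asIdeal = 1 := by
    have h1 := (H594.isUnramifiedOutside_iff_ramificationIdxIn F S).1 hF q hq
    rw [Ideal.ramificationIdx'_eq_ramificationIdx _ _ (intPrime q q.2).ne_bot,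
      ← Ideal.ramificationIdxIn_eq_ramificationIdx (intPrime q q.2).asIdeal w.asIdeal
        (F ≃ₐ[ℚ] F)]
    exact h1
  have h := HeightOneSpectrum.valuation_liesOver F (intPrime q q.2) w (((q : ℕ) : ℚ))
  rw [he, pow_one] at h
  have hcast : ((q : ℕ) : F) = algebraMap ℚ F (((q : ℕ) : ℚ)) := by simp
  rw [hcast, ← h]
  have h2 : (((q : ℕ) : ℚ)) = algebraMap ℤ ℚ ((q : ℕ) : ℤ) := by simp
  rw [h2, HeightOneSpectrum.valuation_of_algebraMap]
  exact HeightOneSpectrum.intValuation_singleton _ (by exact_mod_cast q.2.ne_zero) rfl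

/-- the prime number `q` as a unit of `F` -/
def qUnit (q : Nat.Primes) : Fˣ := Units.mk0 ((q : ℕ) : F) (by exact_mod_cast q.2.ne_zero)

@[simp] lemma coe_qUnit (q : Nat.Primes) : ((qUnit F q : Fˣ) : F) = ((q : ℕ) : F) := rfl

/-- `ord_w(q) = 1`. -/
theorem ordAt_qUnit (hF : F.IsUnramifiedOutside S) (q : Nat.Primes) (hq : q ∉ S)
    (w : HeightOneSpectrum (𝓞 F)) (hw : ((q : ℕ) : 𝓞 F) ∈ w.asIdeal) :
    G.ordAt w (Additive.ofMul (qUnit F q)) = 1 := by
  rw [G.ordAt_apply, toMul_ofMul, coe_qUnit, valuation_prime_eq F hF q hq w hw,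
    WithZero.log_exp, neg_neg]

/-- the place of `F` below a place of `ℚ̄` over `q ∉ S` is outside `S` -/
theorem not_isAbove_placePrime {q : Nat.Primes} (hq : q ∉ S) (A : ValuationSubring Qbar)
    (hA : A.LiesOverPrime (q : ℕ)) : ¬ G.IsAbove S F (placePrime F A q.2 hA) := by
  rintro ⟨q', hqS, hq'⟩
  have hq'' : ((q' : ℕ) : Qbar) ∈ A.nonunits := by
    have := (H594.mem_primeBelowF F A _).1 hq'
    rwa [map_natCast] at this
  have hne : (q : ℕ) ≠ q' := by
    intro heq
    apply hq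
    have : q = q' := Subtype.ext heq
    rw [this]
    exact hqS
  have hv := val_prime_eq_one (A := A) hA q.2 q'.2 hne
  rw [ValuationSubring.mem_nonunits_iff, hv] at hq''
  exact lt_irrefl _ hq''

/-- the place of `F` below `A`, as a prime outside `S` -/
def placeOut {q : Nat.Primes} (hq : q ∉ S) (A : ValuationSubring Qbar)
    (hA : A.LiesOverPrime (q : ℕ)) : G.PrimeOut S F :=
  ⟨placePrime F A q.2 hA, not_isAbove_placePrime F hq A hA⟩

lemma natCast_mem_placePrime {q : Nat.Primes} (A : ValuationSubring Qbar)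
    (hA : A.LiesOverPrime (q : ℕ)) : ((q : ℕ) : 𝓞 F) ∈ (placePrime F A q.2 hA).asIdeal :=
  H594.natCast_mem_primeBelowF F A hA

/-- a unit of `F` of order `0` at the place below `A` is a unit of `A` -/
theorem val_eq_one_of_ordAt_eq_zero {q : Nat.Primes} (A : ValuationSubring Qbar)
    (hA : A.LiesOverPrime (q : ℕ)) (u : Fˣ)
    (hu : G.ordAt (placePrime F A q.2 hA) (Additive.ofMul u) = 0) :
    A.valuation ((u : F) : Qbar) = 1 := by
  rw [G.ordAt_eq_zero_iff, toMul_ofMul] at hu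
  obtain ⟨h1, h2⟩ := (unit_iff_valuation_eq_one F A q.2 hA u).2 hu
  have h3 : A.valuation ((u : F) : Qbar) ≤ 1 := (A.valuation_le_one_iff _).2 h1
  have h4 : A.valuation (((u⁻¹ : Fˣ) : F) : Qbar) ≤ 1 := (A.valuation_le_one_iff _).2 h2
  have h5 : (((u⁻¹ : Fˣ) : F) : Qbar) = ((u : F) : Qbar)⁻¹ := by
    rw [Units.val_inv_eq_inv_val]; rfl
  rw [h5, map_inv₀] at h4
  have hx0 : A.valuation ((u : F) : Qbar) ≠ 0 :=
    (A.valuation).ne_zero_iff.2 (by simp)
  exact le_antisymm h3 ((inv_le_one₀ (zero_lt_iff.2 hx0)).1 h4)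

/-- **(R')** the valuation at `A` of `x ∈ Fˣ` is `v(q) ^ ord_w(x)`, `w` the place below `A`. -/
theorem val_eq_zpow (hF : F.IsUnramifiedOutside S) {q : Nat.Primes} (hq : q ∉ S)
    (A : ValuationSubring Qbar) (hA : A.LiesOverPrime (q : ℕ)) (x : Fˣ) :
    A.valuation ((x : F) : Qbar) =
      A.valuation ((q : ℕ) : Qbar) ^ (G.ordAt (placePrime F A q.2 hA) (Additive.ofMul x)) := by
  set w := placePrime F A q.2 hA with hw
  set n : ℤ := G.ordAt w (Additive.ofMul x) with hn
  have h1 : G.ordAt w (Additive.ofMul (x * (qUnit F q) ^ (-n))) = 0 := by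
    rw [ofMul_mul, ofMul_zpow, map_add, map_zsmul,
      ordAt_qUnit F hF q hq w (natCast_mem_placePrime F A hA), ← hn]
    simp
  have h2 := val_eq_one_of_ordAt_eq_zero F A hA _ h1
  have h3 : (((x * (qUnit F q) ^ (-n) : Fˣ) : F) : Qbar)
      = ((x : F) : Qbar) * (((q : ℕ) : Qbar) ^ n)⁻¹ := by
    rw [Units.val_mul, Units.val_zpow_eq_zpow_val, coe_qUnit, zpow_neg]
    have h4 : ((((q : ℕ) : F) ^ n : F) : Qbar) = ((q : ℕ) : Qbar) ^ n := by
      have := map_zpow₀ (algebraMap F Qbar) ((q : ℕ) : F) n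
      rw [map_natCast] at this
      exact this
    rw [IntermediateField.coe_mul, IntermediateField.coe_inv, h4]
  rw [h3, map_mul, map_inv₀, map_zpow₀] at h2
  have hq0 : A.valuation ((q : ℕ) : Qbar) ^ n ≠ 0 :=
    zpow_ne_zero _ (val_prime_ne_zero q.2)
  exact (mul_inv_eq_one₀ hq0).1 h2

end Level

/-! ## 3. Invariant part of a divisor which is invariant modulo `p` -/

section Decomp

/-- A finitely supported function on a `G`-set which is `H`-invariant modulo `p` is the sum of an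
`H`-invariant function and `p` times a finitely supported function. -/
theorem exists_invariant_decomp {G X : Type*} [Group G] [Finite G] [MulAction G X]
    (H : Subgroup G) (p : ℤ) (d : X →₀ ℤ)
    (hd : ∀ g ∈ H, ∀ x : X, p ∣ d (g • x) - d x) :
    ∃ (E : X → ℤ) (D : X →₀ ℤ), (∀ x, d x = E x + p * D x) ∧
      ∀ g ∈ H, ∀ x, E (g • x) = E x := by
  classical
  haveI : Fintype G := Fintype.ofFinite G
  have hne : (Finset.univ.filter (fun g : G => g ∈ H)).Nonempty :=
    ⟨1, by simp [H.one_mem]⟩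
  have hmin : ∀ x : X, ∃ g ∈ H, ∀ g' ∈ H, d (g • x) ≤ d (g' • x) := by
    intro x
    obtain ⟨g, hg, hgmin⟩ := Finset.exists_min_image _ (fun g : G => d (g • x)) hne
    refine ⟨g, (Finset.mem_filter.1 hg).2, fun g' hg' => ?_⟩
    exact hgmin g' (Finset.mem_filter.2 ⟨Finset.mem_univ _, hg'⟩)
  choose m hmH hmmin using hmin
  set E : X → ℤ := fun x => d (m x • x) with hE
  have hdvd : ∀ x, p ∣ d x - E x := by
    intro x
    have := hd (m x) (hmH x) x
    rw [hE]
    simpa using (dvd_neg.2 this)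
  have hfin : (Function.support fun x : X => (d x - E x) / p).Finite := by
    have h1 : (⋃ g : G, (fun x : X => g • x) ⁻¹' (d.support : Set X)).Finite := by
      refine Set.finite_iUnion fun g => ?_
      exact Set.Finite.preimage (MulAction.injective g).injOn d.support.finite_toSet
    refine h1.subset fun x hx => ?_
    simp only [Function.mem_support, ne_eq] at hx
    simp only [Set.mem_iUnion, Set.mem_preimage, Finset.mem_coe, Finsupp.mem_support_iff]
    by_contra hcon
    simp only [not_exists, not_not] at hcon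
    apply hx
    have h2 : d x = 0 := by simpa using hcon 1
    have h3 : E x = 0 := hcon (m x)
    rw [h2, h3]
    simp
  refine ⟨E, Finsupp.ofSupportFinite (fun x => (d x - E x) / p) hfin, fun x => ?_,
    fun g hg x => ?_⟩
  · show d x = E x + p * ((d x - E x) / p)
    rw [Int.mul_ediv_cancel' (hdvd x)]
    ring
  · apply le_antisymm
    · have h1 := hmmin (g • x) (m x * g⁻¹) (H.mul_mem (hmH x) (H.inv_mem hg))
      have e : (m x * g⁻¹) • g • x = m x • x := by
        rw [← mul_smul, inv_mul_cancel_right]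
      rw [e] at h1
      exact h1
    · have h1 := hmmin x (m (g • x) * g) (H.mul_mem (hmH _) hg)
      rw [mul_smul] at h1
      exact h1

end Decomp

/-! ## 4. Elements of `ℚ̄ˣ` at finite level -/

section Incl

variable {S : Finset Nat.Primes}

/-- the inclusion `Fˣ → ℚ̄ˣ` -/
def incl (F : IntermediateField ℚ Qbar) : Fˣ →* Qbarˣ :=
  Units.map ((algebraMap F Qbar : F →+* Qbar) : F →* Qbar)

@[simp] lemma coe_incl (F : IntermediateField ℚ Qbar) (x : Fˣ) :
    ((incl F x : Qbarˣ) : Qbar) = ((x : F) : Qbar) := rfl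

lemma coe_smul_unit (σ : GQ) (x : Qbarˣ) : ((σ • x : Qbarˣ) : Qbar) = σ (x : Qbar) := rfl

/-- an element fixed by `G_F` lies in `F` -/
lemma exists_incl_eq (F : IntermediateField ℚ Qbar) (β : Qbarˣ)
    (h : ∀ s ∈ F.fixingSubgroup, s • β = β) : ∃ b : Fˣ, incl F b = β := by
  have hmem : (β : Qbar) ∈ F := by
    rw [← InfiniteGalois.fixedField_fixingSubgroup F, IntermediateField.mem_fixedField_iff]
    intro s hs
    have := congrArg (fun u : Qbarˣ => (u : Qbar)) (h s hs)
    exact this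
  refine ⟨Units.mk0 ⟨(β : Qbar), hmem⟩ ?_, Units.ext rfl⟩
  intro h0
  exact β.ne_zero (congrArg (fun u : F => (u : Qbar)) h0)

/-- an `S`-smooth element lies in a finite Galois extension unramified outside `S` -/
lemma exists_galois_incl_eq (w : Qbarˣ) (hw : IsSm S w) :
    ∃ (L : IntermediateField ℚ Qbar) (_ : L.IsUnramifiedOutside S) (_ : IsGalois ℚ L)
      (c : Lˣ), incl L c = w := by
  obtain ⟨U, ⟨F, hF, rfl⟩, hfix⟩ := hw
  obtain ⟨L, hL, hgal, hle⟩ := exists_galois_level_ge S F hF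
  obtain ⟨c, hc⟩ := exists_incl_eq L w
    (fun s hs => hfix s (IntermediateField.fixingSubgroup_antitone hle hs))
  exact ⟨L, hL, hgal, c, hc⟩

/-- **(R'')** an `S`-smooth element has an integral order at every place over `q ∉ S` -/
theorem exists_val_eq_zpow (w : Qbarˣ) (hw : IsSm S w) {q : Nat.Primes} (hq : q ∉ S)
    (A : ValuationSubring Qbar) (hA : A.LiesOverPrime (q : ℕ)) :
    ∃ n : ℤ, A.valuation (w : Qbar) = A.valuation ((q : ℕ) : Qbar) ^ n := by
  obtain ⟨L, hL, hgal, c, rfl⟩ := exists_galois_incl_eq w hw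
  haveI := hL.1
  exact ⟨_, val_eq_zpow L hL hq A hA c⟩

variable (F : IntermediateField ℚ Qbar) [FiniteDimensional ℚ F] [IsGalois ℚ F]

/-- the Galois action on `ℚ̄ˣ` restricted to `Fˣ` -/
lemma smul_incl (σ : GQ) (b : Fˣ) :
    σ • incl F b = incl F ((G.lRepr (F ≃ₐ[ℚ] F) F (AlgEquiv.restrictNormalHom F σ)
      (Additive.ofMul b)).toMul) := by
  apply Units.ext
  rw [coe_smul_unit, coe_incl, coe_incl, G.coe_lRepr_apply, toMul_ofMul, AlgEquiv.smul_def]
  exact (H594.restrictNormalHom_apply F σ (b : F)).symm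

/-- every prime of `F` outside `S` is the place below some `A` over some `q ∉ S` -/
lemma exists_place_out (P : G.PrimeOut S F) :
    ∃ (q : Nat.Primes) (_ : q ∉ S) (A : ValuationSubring Qbar) (hA : A.LiesOverPrime (q : ℕ)),
      placePrime F A q.2 hA = P.1 := by
  obtain ⟨q, hq, A, hA, hPA⟩ := exists_place_eq F P.1
  have hqS : (⟨q, hq⟩ : Nat.Primes) ∉ S := by
    intro hmem
    apply P.2
    refine ⟨⟨q, hq⟩, hmem, ?_⟩
    rw [← hPA]
    exact H594.natCast_mem_primeBelowF F A hA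
  exact ⟨⟨q, hq⟩, hqS, A, hA, HeightOneSpectrum.ext hPA⟩

/-- **Step 2.** If `τβ/β` is a `p`-th power of an `S`-smooth element up to an `S`-unit, then
`ord_P(τβ) ≡ ord_P(β)` modulo `p` at every prime `P` of `F` outside `S`. -/
theorem dvd_ordAt_smul_sub (hF : F.IsUnramifiedOutside S) (p : ℕ) (b : Fˣ) (τ : GQ)
    (hτ : ∃ w : Qbarˣ, IsSm S w ∧ IsSUnit S (w ^ p / (τ • incl F b / incl F b)))
    (P : G.PrimeOut S F) :
    (p : ℤ) ∣ G.ordAt P.1 (G.lRepr (F ≃ₐ[ℚ] F) F (AlgEquiv.restrictNormalHom F τ)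
        (Additive.ofMul b)) - G.ordAt P.1 (Additive.ofMul b) := by
  obtain ⟨w, hw, hu⟩ := hτ
  obtain ⟨q, hq, A, hA, hP⟩ := exists_place_out F P
  obtain ⟨n, hn⟩ := exists_val_eq_zpow w hw hq A hA
  have h1 := val_eq_one_of_isSUnit S hu hq hA
  have h2 := val_eq_zpow F hF hq A hA b
  have h3 := val_eq_zpow F hF hq A hA ((G.lRepr (F ≃ₐ[ℚ] F) F (AlgEquiv.restrictNormalHom F τ)
      (Additive.ofMul b)).toMul)
  rw [hP] at h2 h3
  rw [← coe_incl, ← smul_incl] at h3
  rw [← coe_incl] at h2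
  rw [Units.val_div_eq_div_val, Units.val_div_eq_div_val, Units.val_pow_eq_pow_val, map_div₀,
    map_div₀, map_pow, h2, h3, hn, ofMul_toMul] at h1
  set v := A.valuation ((q : ℕ) : Qbar) with hv
  have hv0 : v ≠ 0 := val_prime_ne_zero q.2
  have h4 : v ^ ((p : ℤ) * n - (G.ordAt P.1 (G.lRepr (F ≃ₐ[ℚ] F) F
      (AlgEquiv.restrictNormalHom F τ) (Additive.ofMul b)) - G.ordAt P.1 (Additive.ofMul b)))
      = v ^ (0 : ℤ) := by
    rw [zpow_sub₀ hv0, zpow_sub₀ hv0, zpow_mul, zpow_natCast, zpow_zero]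
    have e : (v ^ p) ^ n = (v ^ n) ^ p := by
      rw [← zpow_natCast (v ^ n), ← zpow_mul, mul_comm, zpow_mul, zpow_natCast]
    rw [e]
    exact h1
  have h5 := zpow_val_prime_injective q.2 hA h4
  exact ⟨n, by linarith⟩

/-- **Step 5 (Kummer).** If the `S`-divisor of `κ ∈ Fˣ` is divisible by `n` and `n` is a unit
outside `S`, inertia at places over `q ∉ S` fixes the `n`-th roots of `κ`. -/
theorem inertia_fixes_root (hF : F.IsUnramifiedOutside S) (n : ℕ) (hn0 : n ≠ 0)
    (κ : Fˣ) (D : G.PrimeOut S F → ℤ)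
    (hκ : ∀ P : G.PrimeOut S F, G.ordAt P.1 (Additive.ofMul κ) = (n : ℤ) * D P)
    (δ₀ : Qbar) (hδ : δ₀ ^ n = ((κ : F) : Qbar))
    {q : Nat.Primes} (hq : q ∉ S) (A : ValuationSubring Qbar) (hA : A.LiesOverPrime (q : ℕ))
    (hnv : A.valuation ((n : ℕ) : Qbar) = 1)
    (σ : GQ) (hσ : σ ∈ A.inertiaSubgroupIn ℚ) : σ δ₀ = δ₀ := by
  have hσF : σ ∈ F.fixingSubgroup := hF.2 q hq A hA hσ
  set m : ℤ := D (placeOut F hq A hA) with hm
  have hq0 : ((q : ℕ) : Qbar) ≠ 0 := by exact_mod_cast q.2.ne_zero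
  have hqm0 : ((q : ℕ) : Qbar) ^ m ≠ 0 := zpow_ne_zero _ hq0
  set u : Qbar := δ₀ * (((q : ℕ) : Qbar) ^ m)⁻¹ with hu
  -- `u ^ n` is the image of a unit of `F` of order `0`
  have h1 : G.ordAt (placePrime F A q.2 hA)
      (Additive.ofMul (κ * (qUnit F q) ^ (-((n : ℤ) * m)))) = 0 := by
    rw [ofMul_mul, ofMul_zpow, map_add, map_zsmul,
      ordAt_qUnit F hF q hq _ (natCast_mem_placePrime F A hA)]
    have := hκ (placeOut F hq A hA)
    rw [← hm] at this
    change G.ordAt (placePrime F A q.2 hA) (Additive.ofMul κ) = _ at this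
    rw [this]
    simp
  have h2 := val_eq_one_of_ordAt_eq_zero F A hA _ h1
  have h3 : (((κ * (qUnit F q) ^ (-((n : ℤ) * m)) : Fˣ) : F) : Qbar) = u ^ n := by
    rw [Units.val_mul, Units.val_zpow_eq_zpow_val, coe_qUnit, zpow_neg]
    have h4 : ((((q : ℕ) : F) ^ ((n : ℤ) * m) : F) : Qbar) = ((q : ℕ) : Qbar) ^ ((n : ℤ) * m) := by
      have := map_zpow₀ (algebraMap F Qbar) ((q : ℕ) : F) ((n : ℤ) * m)
      rw [map_natCast] at this
      exact this
    rw [IntermediateField.coe_mul, IntermediateField.coe_inv, h4, hu, mul_pow, hδ, inv_pow,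
      ← zpow_natCast (((q : ℕ) : Qbar) ^ m), ← zpow_mul, mul_comm m]
  have hun : σ (u ^ n) = u ^ n := by
    rw [← h3]
    exact (IntermediateField.mem_fixingSubgroup_iff F σ).1 hσF _ (SetLike.coe_mem _)
  have hv : A.valuation u = 1 := by
    rw [h3, map_pow] at h2
    exact val_eq_one_of_pow hn0 h2
  have hσu : σ u = u := kummer_unit_fixed_of_mem_inertia hn0 hnv hσ hun hv
  have hδu : δ₀ = u * ((q : ℕ) : Qbar) ^ m := by
    rw [hu, mul_assoc, inv_mul_cancel₀ hqm0, mul_one]
  rw [hδu, map_mul, hσu, map_zpow₀, map_natCast]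

/-- `ord_P(g x) = ord_{g⁻¹ P}(x)`. -/
lemma ordAt_lRepr (g : F ≃ₐ[ℚ] F) (P : G.PrimeOut S F) (x : Additive Fˣ) :
    G.ordAt P.1 (G.lRepr (F ≃ₐ[ℚ] F) F g x) =
      G.ordAt (G.primeOutMap S (F ≃ₐ[ℚ] F) F g⁻¹ P).1 x := by
  have h1 : P = G.primeOutMap S (F ≃ₐ[ℚ] F) F g (G.primeOutMap S (F ≃ₐ[ℚ] F) F g⁻¹ P) := by
    rw [← G.primeOutMap_mul, mul_inv_cancel, G.primeOutMap_one]
  conv_lhs => rw [h1]
  rw [G.primeOutMap_val, G.ordAt_primeSMul]

/-- **Step 6, finite level.** If the `S`-divisor of `y ∈ Fˣ` is invariant under the image of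
`V`, then `σ y / y` is a unit at all places over `q ∉ S`, for `σ ∈ V`. -/
theorem val_smul_div_eq_one (V : Subgroup GQ) (E : G.PrimeOut S F → ℤ)
    (hinv : ∀ g ∈ V.map (AlgEquiv.restrictNormalHom F), ∀ P : G.PrimeOut S F,
      E (G.primeOutMap S (F ≃ₐ[ℚ] F) F g P) = E P)
    (y : Fˣ) (c : ℤ) (hy : ∀ P : G.PrimeOut S F, G.ordAt P.1 (Additive.ofMul y) = c * E P)
    (σ : GQ) (hσ : σ ∈ V) {q : Nat.Primes} (hq : q ∉ S) (A : ValuationSubring Qbar)
    (hA : A.LiesOverPrime (q : ℕ)) :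
    A.valuation ((σ • incl F y / incl F y : Qbarˣ) : Qbar) = 1 := by
  set g := AlgEquiv.restrictNormalHom F σ with hg
  have hgH : g⁻¹ ∈ V.map (AlgEquiv.restrictNormalHom F) :=
    Subgroup.inv_mem _ ⟨σ, hσ, rfl⟩
  rw [smul_incl, ← map_div, coe_incl]
  apply val_eq_one_of_ordAt_eq_zero F A hA
  rw [ofMul_div, ofMul_toMul, map_sub]
  have h1 := ordAt_lRepr F g (placeOut F hq A hA) (Additive.ofMul y)
  change G.ordAt (placePrime F A q.2 hA) _ = _ at h1
  rw [h1, hy, hinv _ hgH]
  have h2 := hy (placeOut F hq A hA)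
  change G.ordAt (placePrime F A q.2 hA) _ = _ at h2
  rw [h2, sub_self]

end Incl

/-! ## 5. The theorem -/

section Main

/-- a group identity -/
lemma group_identity {M : Type*} [CommGroup M] (x y z : M) (n h h' p : ℕ) (r s : ℤ)
    (hz : x ^ n = z) (hh : h = n * h') (hrs : r * h' + s * p = 1) :
    ((x ^ r * y ^ s) ^ p / y) ^ n = (z ^ p / y ^ h) ^ r := by
  have := (show ∀ (x y z : Additive M), n • x = z →
      n • (p • (r • x + s • y) - y) = r • (p • z - h • y) from by
    intro x y z hz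
    subst hz hh
    have key : n • (p • (r • x + s • y) - y) - r • (p • (n • x) - (n * h') • y)
        = (n : ℤ) • ((r * h' + s * p - 1) • y) := by
      module
    rw [hrs, sub_self, zero_smul, smul_zero, sub_eq_zero] at key
    exact key) (Additive.ofMul x) (Additive.ofMul y) (Additive.ofMul z)
      (congrArg Additive.ofMul hz)
  exact congrArg Additive.toMul this

variable (p : ℕ) [Fact p.Prime] (S : Finset Nat.Primes)

/-- **GO3-CAPDIV.** -/
theorem capDiv : CapDivSpec p S := by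
  intro hpS V hV β hβ hyp
  have hp : p.Prime := Fact.out
  -- a Galois level containing `β`
  obtain ⟨F, hF, hgal, b, rfl⟩ := exists_galois_incl_eq β hβ
  haveI := hF.1
  haveI := hgal
  letI : MulAction (F ≃ₐ[ℚ] F) (G.PrimeOut S F) := G.primeOutAction S (F ≃ₐ[ℚ] F) F
  -- the divisor of `b` is invariant modulo `p`
  have hd : ∀ g ∈ V.map (AlgEquiv.restrictNormalHom F), ∀ P : G.PrimeOut S F,
      (p : ℤ) ∣ G.ordHom S F (Additive.ofMul b) (g • P) - G.ordHom S F (Additive.ofMul b) P := by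
    rintro g ⟨τ, hτV, rfl⟩ P
    have h1 := dvd_ordAt_smul_sub F hF p b τ⁻¹ (hyp τ⁻¹ (V.inv_mem hτV)) P
    rw [ordAt_lRepr, map_inv, inv_inv] at h1
    exact h1
  obtain ⟨E, D, hdec, hinv⟩ := exists_invariant_decomp (V.map (AlgEquiv.restrictNormalHom F))
    (p : ℤ) (G.ordHom S F (Additive.ofMul b)) hd
  -- finiteness of the class group
  have hidx : (G.ordHom S F).range.index ≠ 0 := G.ClsH604.ordHom_range_index_ne_zero S F
  obtain ⟨k₁, hk₁⟩ : ∃ k₁ : Additive Fˣ, G.ordHom S F k₁ = (G.ordHom S F).range.index • D :=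
    AddMonoidHom.mem_range.1 (AddSubgroup.nsmul_index_mem (G.ordHom S F).range D)
  obtain ⟨a, h', hph', hh⟩ := Nat.exists_eq_pow_mul_and_not_dvd hidx p hp.ne_one
  have hcop : IsCoprime (h' : ℤ) (p : ℤ) := by
    have : Nat.Coprime h' p := ((Nat.Prime.coprime_iff_not_dvd hp).2 hph').symm
    exact Nat.isCoprime_iff_coprime.2 this
  obtain ⟨r, s, hrs⟩ := hcop
  set κ : Fˣ := k₁.toMul with hκdef
  have hκ : ∀ P : G.PrimeOut S F,
      G.ordAt P.1 (Additive.ofMul κ) = ((p ^ a : ℕ) : ℤ) * ((h' : ℤ) * D P) := by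
    intro P
    have := DFunLike.congr_fun hk₁ P
    rw [G.ordHom_apply, Finsupp.smul_apply, hh, nsmul_eq_mul] at this
    rw [hκdef, ofMul_toMul, this]
    push_cast
    ring
  -- the root
  have hpa : p ^ a ≠ 0 := (pow_pos hp.pos a).ne'
  obtain ⟨δ₀, hδ₀⟩ := IsAlgClosed.exists_pow_nat_eq ((κ : F) : Qbar) (pow_pos hp.pos a)
  have hδ₀0 : δ₀ ≠ 0 := by
    rintro rfl
    rw [zero_pow hpa] at hδ₀
    have : ((κ : F) : Qbar) ≠ 0 := by simp
    exact this hδ₀.symm
  -- the level
  have hfinδ : FiniteDimensional ℚ (IntermediateField.adjoin ℚ {δ₀}) :=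
    IntermediateField.adjoin.finiteDimensional ((isAlgebraic_Qbar.isAlgebraic δ₀).isIntegral)
  have hsupfin : FiniteDimensional ℚ ↥(F ⊔ IntermediateField.adjoin ℚ {δ₀}) :=
    IntermediateField.finiteDimensional_sup F _
  obtain ⟨L, hL, hLfix, -⟩ := exists_level_of_subgroup S
    (F.fixingSubgroup ⊓ MulAction.stabilizer GQ δ₀) (F ⊔ IntermediateField.adjoin ℚ {δ₀}) hsupfin
    (fun t ht => by
      rw [IntermediateField.fixingSubgroup_sup] at ht
      refine ⟨ht.1, ?_⟩
      show t ∈ MulAction.stabilizer GQ δ₀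
      rw [MulAction.mem_stabilizer_iff]
      exact (IntermediateField.mem_fixingSubgroup_iff _ t).1 ht.2 δ₀
        (IntermediateField.mem_adjoin_simple_self ℚ δ₀))
    (fun q hq A hA t ht => by
      refine ⟨hF.2 q hq A hA ht, ?_⟩
      show t ∈ MulAction.stabilizer GQ δ₀
      rw [MulAction.mem_stabilizer_iff]
      have hqp : (q : ℕ) ≠ p := by
        intro h
        apply hq
        have : q = ExtCitation.pPrime p := Subtype.ext h
        rw [this]
        exact hpS
      have hnv : A.valuation ((p ^ a : ℕ) : Qbar) = 1 := by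
        rw [Nat.cast_pow, map_pow, val_prime_eq_one (A := A) hA q.2 hp hqp, one_pow]
      exact inertia_fixes_root F hF (p ^ a) hpa κ (fun P => (h' : ℤ) * D P) hκ δ₀ hδ₀ hq A hA
        hnv t ht)
  set δ : Qbarˣ := Units.mk0 δ₀ hδ₀0 with hδdef
  have hδ : δ ^ (p ^ a) = incl F κ := Units.ext (by
    rw [Units.val_pow_eq_pow_val]
    exact hδ₀)
  refine ⟨δ ^ r * (incl F b) ^ s, ⟨L.fixingSubgroup, ⟨L, hL, rfl⟩, fun t ht => ?_⟩,
    fun σ hσ => ?_⟩
  · rw [hLfix] at ht
    have h1 : t • δ = δ := Units.ext (MulAction.mem_stabilizer_iff.1 ht.2)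
    have h2 : t • incl F b = incl F b :=
      Units.ext ((IntermediateField.mem_fixingSubgroup_iff F t).1 ht.1 _ (SetLike.coe_mem _))
    rw [smul_mul', smul_zpow', smul_zpow', h1, h2]
  · apply isSUnit_of_forall_liesOver
    intro q hq A hA
    have hY : ∀ P : G.PrimeOut S F,
        G.ordAt P.1 (Additive.ofMul (κ ^ p / b ^ (G.ordHom S F).range.index))
          = (-((G.ordHom S F).range.index : ℤ)) * E P := by
      intro P
      have h1 := hdec P
      rw [G.ordHom_apply] at h1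
      rw [ofMul_div, ofMul_pow, ofMul_pow, map_sub, map_nsmul, map_nsmul, hκ P, h1, hh]
      push_cast
      ring
    have hval := val_smul_div_eq_one F V E (fun g hg P => hinv g hg P) _ _ hY σ hσ hq A hA
    have hz : (σ • δ / δ) ^ (p ^ a) = σ • incl F κ / incl F κ := by
      rw [div_pow, ← smul_pow', hδ]
    have hid := group_identity (σ • δ / δ) (σ • incl F b / incl F b)
      (σ • incl F κ / incl F κ) (p ^ a) _ h' p r s hz hh hrs
    have hT : σ • (δ ^ r * incl F b ^ s) / (δ ^ r * incl F b ^ s)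
        = (σ • δ / δ) ^ r * (σ • incl F b / incl F b) ^ s := by
      rw [smul_mul', smul_zpow', smul_zpow', div_zpow, div_zpow, mul_div_mul_comm]
    have hYQ : σ • incl F (κ ^ p / b ^ (G.ordHom S F).range.index)
          / incl F (κ ^ p / b ^ (G.ordHom S F).range.index)
        = (σ • incl F κ / incl F κ) ^ p
          / (σ • incl F b / incl F b) ^ (G.ordHom S F).range.index := by
      rw [map_div, map_pow, map_pow, smul_div', smul_pow', smul_pow', div_pow, div_pow,
        div_div_div_comm]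
    rw [hT]
    apply val_eq_one_of_pow hpa
    rw [← map_pow, ← Units.val_pow_eq_pow_val, hid, ← hYQ, Units.val_zpow_eq_zpow_val,
      map_zpow₀, hval, one_zpow]

end Main

end Fermat.Agent.S55.K.GO3H535.H510

end
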