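import Fermat.Agent.S55.K.GO3H535.Local
import Fermat.Agent.S55.G.Rec.Hilbert90H844

/-!
# S55 / K / GO3 (helper535): descent of the primitive

* `h90_535` : Hilbert 90 for level crossed homomorphisms `W → ℚ̄ˣ`, `W ≤ G_ℚ` any subgroup;
* `exists_invariant_primitive` : a level primitive `z` of a 2-cocycle `c` of `V` which is constant
  modulo a normal subgroup `N ≤ V` can be corrected by a coboundary to a primitive which is
  constant modulo `N`  (inflation–restriction + Hilbert 90);
* `exists_sUnit_primitive` : with `CapDivSpec`, a primitive with `S`-unit values.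
-/

set_option autoImplicit false

noncomputable section

namespace Fermat.Agent.S55.K.GO3H535

open groupCohomology Fermat.Agent.S55.PT Fermat.Agent.S55.Bridge Fermat.Agent.S55.G.Rec
open scoped Pointwise

/-- The stabiliser of a finite extension has finite index in every subgroup. -/
lemma finite_quotient_comap535 (E : IntermediateField ℚ Qbar) [FiniteDimensional ℚ E]
    {H : Type*} [Group H] (f : H →* GQ) : Finite (H ⧸ (E.fixingSubgroup.comap f)) := by
  let φ : H → (E →ₐ[ℚ] Qbar) := fun g => ((f g : GQ) : Qbar →ₐ[ℚ] Qbar).comp E.val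
  have hφ : ∀ g g' : H, φ g = φ g' → g⁻¹ * g' ∈ E.fixingSubgroup.comap f := by
    intro g g' h
    rw [Subgroup.mem_comap, IntermediateField.mem_fixingSubgroup_iff]
    intro x hx
    have := DFunLike.congr_fun h ⟨x, hx⟩
    change f g x = f g' x at this
    rw [map_mul, map_inv, AlgEquiv.mul_apply, ← this]
    exact (f g).symm_apply_apply x
  have hinj : Function.Injective
      (fun t : H ⧸ (E.fixingSubgroup.comap f) => φ (Quotient.out t)) := by
    intro t t' h
    have := hφ _ _ h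
    rw [← QuotientGroup.eq, QuotientGroup.out_eq', QuotientGroup.out_eq'] at this
    exact this
  exact Finite.of_injective _ hinj

/-- **Hilbert 90** for level crossed homomorphisms of a subgroup `W ≤ G_ℚ` in `ℚ̄ˣ`. -/
theorem h90_535 (W : Subgroup GQ) (F : IntermediateField ℚ Qbar) [FiniteDimensional ℚ F]
    (c : ↥W → Qbarˣ) (hc : ∀ g h : ↥W, c (g * h) = (g : GQ) • c h * c g)
    (hcF : ∀ g s : ↥W, (s : GQ) ∈ F.fixingSubgroup → c (g * s) = c g) :
    ∃ β : Qbarˣ, ∀ g : ↥W, c g = (g : GQ) • β / β := by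
  haveI := finite_quotient_comap535 F W.subtype
  obtain ⟨β, hβ⟩ := H844.exists_unit_of_levelCocycle844 (H := ↥W) (Ω := Qbar) (T := ↥F)
    ((algebraMap F Qbar : F →* Qbar)) (F.fixingSubgroup.comap W.subtype)
    (by
      intro g hg
      rw [Subgroup.mem_comap, IntermediateField.mem_fixingSubgroup_iff]
      intro x hx
      exact hg ⟨x, hx⟩)
    (by
      intro g hg θ
      rw [Subgroup.mem_comap, IntermediateField.mem_fixingSubgroup_iff] at hg
      exact hg θ θ.2)
    c
    (by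
      intro g h
      have := congrArg (fun u : Qbarˣ => (u : Qbar)) (hc g h)
      exact this)
    (by
      intro g s hs
      exact hcF g s hs)
  refine ⟨β⁻¹, fun g => ?_⟩
  have h1 : (g : GQ) • β * c g = β := by
    apply Units.ext
    exact hβ g
  have h2 : c g = ((g : GQ) • β)⁻¹ * β := eq_inv_mul_of_mul_eq h1
  rw [h2, smul_inv', div_eq_mul_inv, inv_inv]

section Abstract

variable {k : Type} [CommRing k] {G : Type} [Group G] {A : Rep.{0, 0, 0} k G}

lemma cocycle₂_apply_one (c : G × G → A) (hc : c ∈ cocycles₂ A) (g : G) :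
    c (g, 1) = A.ρ g (c (1, 1)) := by
  have h := (mem_cocycles₂_iff c).1 hc g 1 1
  rw [mul_one, mul_one] at h
  exact add_right_cancel h

/-- correcting a primitive by a coboundary -/
def corr (z : G → A) (a : A) : G → A := fun g => z g - (A.ρ g a - a)

lemma d₁₂_corr (z : G → A) (a : A) : (d₁₂ A).hom (corr z a) = (d₁₂ A).hom z := by
  funext ⟨g, h⟩
  rw [d₁₂_hom_apply, d₁₂_hom_apply]
  simp only [corr, map_sub, map_mul, Module.End.mul_apply]
  abel

/-- **Inflation–restriction**, abstract form: if `z - c(1,1)` is the coboundary of `a` on `N`,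
then `corr z a` is right-`N`-invariant. -/
lemma corr_invariant (N : Subgroup G) (c : G × G → A) (hc : c ∈ cocycles₂ A)
    (hcN : ∀ g g' s s' : G, s ∈ N → s' ∈ N → c (g * s, g' * s') = c (g, g'))
    (z : G → A) (hdz : (d₁₂ A).hom z = c) (a : A)
    (ha : ∀ s ∈ N, z s - c (1, 1) = A.ρ s a - a) (g s : G) (hs : s ∈ N) :
    corr z a (g * s) = corr z a g := by
  have h1 : corr z a s = c (1, 1) := by
    have := ha s hs
    unfold corr
    rw [← this]
    abel
  have h2 := congrFun ((d₁₂_corr z a).trans hdz) (g, s)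
  rw [d₁₂_hom_apply, h1] at h2
  have h3 : c (g, s) = A.ρ g (c (1, 1)) := by
    have := hcN g 1 1 s N.one_mem hs
    rw [mul_one, one_mul] at this
    rw [this, cocycle₂_apply_one c hc]
  rw [h3] at h2
  have h4 : corr z a (g * s) = corr z a g := by
    have h5 := sub_eq_zero.2 h2
    have h6 : corr z a g - corr z a (g * s) =
        (A.ρ g) (c (1, 1)) - corr z a (g * s) + corr z a g - (A.ρ g) (c (1, 1)) := by abel
    rw [h5] at h6
    exact (sub_eq_zero.1 h6).symm
  exact h4

end Abstract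

/-- **Inflation–restriction + Hilbert 90**: a level primitive of a 2-cocycle of `V` in `ℚ̄ˣ`
which is constant modulo a normal subgroup `N ≤ V` can be corrected by a coboundary to a
primitive which is constant modulo `N`. -/
theorem exists_invariant_primitive (V N : Subgroup GQ) (hNV : N ≤ V) [hN : N.Normal]
    (c : ↥V × ↥V → gModOn V) (hc : c ∈ cocycles₂ (gModOn V))
    (hcN : ∀ g g' s s' : ↥V, (s : GQ) ∈ N → (s' : GQ) ∈ N → c (g * s, g' * s') = c (g, g'))
    (z : ↥V → gModOn V) (hz : IsLevelConstant₁ V.subtype z)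
    (hdz : (d₁₂ (gModOn V)).hom z = c) :
    ∃ a : gModOn V, ∀ g s : ↥V, (s : GQ) ∈ N → corr z a (g * s) = corr z a g := by
  obtain ⟨F, hF, hzF⟩ := hz
  haveI := hF
  have hfix : ∀ s : ↥V, (s : GQ) ∈ N → (gModOn V).ρ s (c (1, 1)) = c (1, 1) := fun s hs =>
    cocycle₂_values_fixed c hc (N.subgroupOf V)
      (fun g g' s s' hs hs' => hcN g g' s s' hs hs') s hs 1 1
  let ι : ↥N →* ↥V := Subgroup.inclusion hNV
  have hι : ∀ s : ↥N, ((ι s : ↥V) : GQ) = (s : GQ) := fun s => rfl
  let f : ↥N → Qbarˣ := fun s => Additive.toMul (z (ι s) - c (1, 1))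
  have hf : ∀ s t : ↥N, f (s * t) = (s : GQ) • f t * f s := by
    intro s t
    have h := congrFun hdz (ι s, ι t)
    rw [d₁₂_hom_apply] at h
    have hce : c (ι s, ι t) = c (1, 1) := by
      have := hcN 1 1 (ι s) (ι t) s.2 t.2
      rwa [one_mul, one_mul] at this
    rw [hce] at h
    apply Additive.ofMul.injective
    show z (ι (s * t)) - c (1, 1) =
      (gModOn V).ρ (ι s) (z (ι t) - c (1, 1)) + (z (ι s) - c (1, 1))
    rw [map_mul, map_sub, hfix (ι s) s.2]
    have h5 := sub_eq_zero.2 h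
    have h6 : ((gModOn V).ρ (ι s)) (z (ι t)) - c (1, 1) + (z (ι s) - c (1, 1)) -
        (z (ι s * ι t) - c (1, 1)) =
        ((gModOn V).ρ (ι s)) (z (ι t)) - z (ι s * ι t) + z (ι s) - c (1, 1) := by abel
    rw [h5] at h6
    exact (sub_eq_zero.1 h6).symm
  have hfF : ∀ g s : ↥N, (s : GQ) ∈ F.fixingSubgroup → f (g * s) = f g := by
    intro g s hs
    show Additive.toMul (z (ι (g * s)) - c (1, 1)) = Additive.toMul (z (ι g) - c (1, 1))
    rw [map_mul, hzF (ι g) (ι s) hs]
  obtain ⟨β, hβ⟩ := h90_535 N F f hf hfF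
  refine ⟨Additive.ofMul β, fun g s hs => ?_⟩
  refine corr_invariant (N.subgroupOf V) c hc (fun g g' s s' hs hs' => hcN g g' s s' hs hs')
    z hdz (Additive.ofMul β) ?_ g s hs
  intro s hs
  have := hβ ⟨(s : GQ), hs⟩
  exact congrArg Additive.ofMul this

/-! ### `S`-units -/

section SUnit

variable {S : Finset Nat.Primes}

/-- a root of an `S`-unit is an `S`-unit. -/
lemma isSUnit_of_pow {u : Qbarˣ} {n : ℕ} (hn : n ≠ 0) (h : IsSUnit S (u ^ n)) : IsSUnit S u := by
  intro A hA
  obtain ⟨h1, h2⟩ := h A hA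
  have hv1 : A.valuation (u : Qbar) ^ n ≤ 1 := by
    rw [← map_pow]
    exact (A.valuation_le_one_iff _).2 (by simpa using h1)
  have hv2 : A.valuation ((u⁻¹ : Qbarˣ) : Qbar) ^ n ≤ 1 := by
    rw [← map_pow]
    exact (A.valuation_le_one_iff _).2 (by simpa using h2)
  exact ⟨(A.valuation_le_one_iff _).1 ((pow_le_one_iff_of_nonneg zero_le hn).1 hv1),
    (A.valuation_le_one_iff _).1 ((pow_le_one_iff_of_nonneg zero_le hn).1 hv2)⟩

lemma isSUnit_of_nsmul_mem {a : Additive Qbarˣ} {n : ℕ} (hn : n ≠ 0)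
    (h : n • a ∈ sUnitsSub S) : a ∈ sUnitsSub S :=
  isSUnit_of_pow (u := Additive.toMul a) hn h

end SUnit

/-! ### The `S`-unit valued primitive -/

section Main

attribute [local instance] isAlgebraic_Qbar isGalois_Qbar

variable {S : Finset Nat.Primes} {V : Subgroup GQ}

/-- a common normal `S`-level for `V`, `x` and `b`. -/
lemma exists_common_level (hV : V ∈ (globalLevels S).levels)
    {x : GQ × GQ → indG V (sUnits S)} (hx : (globalLevels S).IsLC₂ x)
    {b : GQ → indG V (sUnits S)} (hb : (globalLevels S).IsLC₁ b) :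
    ∃ L : IntermediateField ℚ Qbar, L.IsUnramifiedOutside S ∧ L.fixingSubgroup.Normal ∧
      L.fixingSubgroup ≤ V ∧
      (∀ g g' s s' : GQ, s ∈ L.fixingSubgroup → s' ∈ L.fixingSubgroup →
        x (g * s, g' * s') = x (g, g')) ∧
      ∀ g s : GQ, s ∈ L.fixingSubgroup → b (g * s) = b g := by
  obtain ⟨F0, hF0, rfl⟩ := hV
  obtain ⟨U, ⟨Fx, hFx, rfl⟩, hx⟩ := hx
  obtain ⟨U, ⟨Fb, hFb, rfl⟩, hb⟩ := hb
  obtain ⟨L, hL, hgal, hle⟩ := exists_galois_level_ge S (F0 ⊔ Fx ⊔ Fb) ((hF0.sup hFx).sup hFb)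
  refine ⟨L, hL, (InfiniteGalois.normal_iff_isGalois L).2 hgal,
    IntermediateField.fixingSubgroup_antitone ((le_sup_left.trans le_sup_left).trans hle),
    fun g g' s s' hs hs' => hx g g' s s' ?_ ?_, fun g s hs => hb g s ?_⟩
  · exact IntermediateField.fixingSubgroup_antitone ((le_sup_right.trans le_sup_left).trans hle) hs
  · exact IntermediateField.fixingSubgroup_antitone ((le_sup_right.trans le_sup_left).trans hle)
      hs'
  · exact IntermediateField.fixingSubgroup_antitone (le_sup_right.trans hle) hs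

/-- **Descent to `S`-units.**  With `CapDivSpec`: a level primitive `z` (values in `ℚ̄ˣ`) of the
evaluation `xV x` of a level cocycle `x` of `Ind_V 𝔼` with `p • x` a level coboundary can be
replaced by a primitive `y` with values in `𝔼`, constant modulo an `S`-level. -/
theorem exists_sUnit_primitive (p : ℕ) [Fact p.Prime] (hCD : CapDivSpec p S)
    (hpS : ExtCitation.pPrime p ∈ S) (hV : V ∈ (globalLevels S).levels)
    {x : GQ × GQ → indG V (sUnits S)} (hx : x ∈ (globalLevels S).Z2 (indG V (sUnits S)))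
    (hp : p • x ∈ (globalLevels S).B2 (indG V (sUnits S)))
    (z : ↥V → gModOn V) (hz : IsLevelConstant₁ V.subtype z)
    (hdz : (d₁₂ (gModOn V)).hom z = xV S V x) :
    ∃ y : ↥V → sUnits S,
      (∃ U ∈ (globalLevels S).levels, U ≤ V ∧ ∀ v s : ↥V, (s : GQ) ∈ U → y (v * s) = y v) ∧
      ∀ v₁ v₂ : ↥V, evAt V (sUnits S) ((1 : GQ) : GQ ⧸ V) (x ((v₁ : GQ), (v₂ : GQ))) =
          (sUnits S).ρ (v₁ : GQ) (y v₂) - y (v₁ * v₂) + y v₁ := by
  obtain ⟨b, hb, hbx⟩ := hp
  obtain ⟨L, hL, hLn, hLV, hxL, hbL⟩ := exists_common_level hV hx.2 hb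
  haveI := hLn
  haveI := hL.1
  have hcN : ∀ g g' s s' : ↥V, (s : GQ) ∈ L.fixingSubgroup → (s' : GQ) ∈ L.fixingSubgroup →
      xV S V x (g * s, g' * s') = xV S V x (g, g') := by
    intro g g' s s' hs hs'
    show ev1 S V (x _) = ev1 S V (x _)
    congr 1
    exact hxL _ _ _ _ hs hs'
  have hbN : ∀ g s : ↥V, (s : GQ) ∈ L.fixingSubgroup → bV S V b (g * s) = bV S V b g := by
    intro g s hs
    show ev1 S V (b _) = ev1 S V (b _)
    congr 1
    exact hbL _ _ hs
  -- step 1: a primitive which is constant modulo `N = G_L`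
  obtain ⟨a, ha⟩ := exists_invariant_primitive V L.fixingSubgroup hLV (xV S V x) (xV_mem hx).1
    hcN z hz hdz
  have hdz₁ : (d₁₂ (gModOn V)).hom (corr z a) = xV S V x := (d₁₂_corr z a).trans hdz
  have hz₁fix : ∀ u : ↥V, (u : GQ) ∈ L.fixingSubgroup → ∀ v : ↥V,
      (gModOn V).ρ u (corr z a v) = corr z a v := fun u hu v =>
    cochain₁_values_fixed (corr z a) (L.fixingSubgroup.subgroupOf V) (fun g s hs => ha g s hs)
      (fun g g' s hs => by
        rw [hdz₁]
        have := hcN g g' s 1 hs (one_mem _)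
        rwa [mul_one] at this) u hu v
  -- step 2: the crossed homomorphism `p z₁ - b`
  have hdb : (d₁₂ (gModOn V)).hom (bV S V b) = p • xV S V x := by
    have h := cochainsPullPush₂_d₁₂ V.subtype (ev1 S V) (ev1_ρ S V) b
    rw [hbx, map_nsmul] at h
    exact h.symm
  let f₂ : ↥V → Qbarˣ := fun v => Additive.toMul (α := Qbarˣ) (p • corr z a v - bV S V b v)
  have hf₂ : ∀ g h : ↥V, f₂ (g * h) = (g : GQ) • f₂ h * f₂ g := by
    intro g h
    have h1 := congrFun hdz₁ (g, h)
    have h2 := congrFun hdb (g, h)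
    rw [d₁₂_hom_apply] at h1 h2
    rw [Pi.smul_apply, ← h1] at h2
    apply Additive.ofMul.injective
    show p • corr z a (g * h) - bV S V b (g * h) =
      (gModOn V).ρ g (p • corr z a h - bV S V b h) + (p • corr z a g - bV S V b g)
    rw [map_sub, map_nsmul]
    linear_combination (norm := module) h2
  have hf₂L : ∀ g s : ↥V, (s : GQ) ∈ L.fixingSubgroup → f₂ (g * s) = f₂ g := by
    intro g s hs
    show Additive.toMul (α := Qbarˣ) (p • corr z a (g * s) - bV S V b (g * s)) =
      Additive.toMul (α := Qbarˣ) (p • corr z a g - bV S V b g)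
    rw [ha g s hs, hbN g s hs]
  obtain ⟨β, hβ⟩ := h90_535 V L f₂ hf₂ hf₂L
  have hLlev : L.fixingSubgroup ∈ (globalLevels S).levels := ⟨L, hL, rfl⟩
  -- `β` is `S`-smooth
  have hβsm : IsSm S β := by
    refine ⟨L.fixingSubgroup, hLlev, fun s hs => ?_⟩
    have h1 := hβ ⟨s, hLV hs⟩
    have h2 := hf₂L 1 ⟨s, hLV hs⟩ hs
    rw [one_mul] at h2
    have h3 := hβ 1
    rw [h2, h3] at h1
    have h4 : ((1 : ↥V) : GQ) • β / β = 1 := by
      rw [Subgroup.coe_one, one_smul, div_self']
    rw [h4] at h1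
    exact (div_eq_one.1 h1.symm)
  -- the hypothesis of `CapDivSpec`
  have hw : ∀ σ ∈ V, ∃ w : Qbarˣ, IsSm S w ∧ IsSUnit S (w ^ p / (σ • β / β)) := by
    intro σ hσ
    refine ⟨Additive.toMul (α := Qbarˣ) (corr z a ⟨σ, hσ⟩),
      ⟨L.fixingSubgroup, hLlev, fun s hs => ?_⟩, ?_⟩
    · exact congrArg (Additive.toMul (α := Qbarˣ)) (hz₁fix ⟨s, hLV hs⟩ hs ⟨σ, hσ⟩)
    · have h1 : (Additive.toMul (α := Qbarˣ) (corr z a ⟨σ, hσ⟩)) ^ p / (σ • β / β) =
          Additive.toMul (α := Qbarˣ) (bV S V b ⟨σ, hσ⟩) := by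
        have h2 := hβ ⟨σ, hσ⟩
        rw [← h2]
        apply Additive.ofMul.injective
        show p • corr z a ⟨σ, hσ⟩ - (p • corr z a ⟨σ, hσ⟩ - bV S V b ⟨σ, hσ⟩) = bV S V b ⟨σ, hσ⟩
        abel
      rw [h1]
      exact ev1_isSUnit S V _
  obtain ⟨α, ⟨Uα, hUα, hαfix⟩, hα⟩ := hCD hpS V hV β hβsm hw
  -- step 3: the corrected primitive
  have hdz₂ : (d₁₂ (gModOn V)).hom (corr (corr z a) (toGMod V α)) = xV S V x :=
    (d₁₂_corr (corr z a) _).trans hdz₁
  have hz₂S : ∀ v : ↥V, corr (corr z a) (toGMod V α) v ∈ sUnitsSub S := by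
    intro v
    apply isSUnit_of_nsmul_mem (Fact.out : p.Prime).ne_zero
    have h1 : bV S V b v ∈ sUnitsSub S := ev1_isSUnit S V _
    have h2 : toGMod V (((v : GQ) • α / α) ^ p / ((v : GQ) • β / β)) ∈ sUnitsSub S :=
      hα v v.2
    have h3 : p • corr (corr z a) (toGMod V α) v =
        bV S V b v - toGMod V (((v : GQ) • α / α) ^ p / ((v : GQ) • β / β)) := by
      have h4 := hβ v
      rw [← h4]
      show p • (corr z a v - ((gModOn V).ρ v (toGMod V α) - toGMod V α)) =
        bV S V b v - (p • ((gModOn V).ρ v (toGMod V α) - toGMod V α) -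
          (p • corr z a v - bV S V b v))
      module
    have h5 : bV S V b v - toGMod V (((v : GQ) • α / α) ^ p / ((v : GQ) • β / β)) ∈
        sUnitsSub S := (sUnitsSub S).sub_mem h1 h2
    exact (congrArg (fun t : gModOn V => t ∈ sUnitsSub S) h3).mpr h5
  obtain ⟨W, hW, hWle⟩ := (globalLevels S).directed L.fixingSubgroup hLlev Uα hUα
  refine ⟨fun v => ⟨corr (corr z a) (toGMod V α) v, hz₂S v⟩,
    ⟨W, hW, fun s hs => hLV (hWle hs).1, fun v s hs => ?_⟩, fun v₁ v₂ => ?_⟩
  · apply Subtype.ext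
    show corr z a (v * s) - ((gModOn V).ρ (v * s) (toGMod V α) - toGMod V α) =
      corr z a v - ((gModOn V).ρ v (toGMod V α) - toGMod V α)
    have h1 : (gModOn V).ρ s (toGMod V α) = toGMod V α :=
      congrArg Additive.ofMul (hαfix s (hWle hs).2)
    rw [ha v s (hWle hs).1, map_mul, Module.End.mul_apply, h1]
  · apply Subtype.ext
    have h1 := congrFun hdz₂ (v₁, v₂)
    rw [d₁₂_hom_apply] at h1
    exact h1.symm

end Main

end Fermat.Agent.S55.K.GO3H535

end
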