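import Fermat.Agent.S55.K.GO3H535.Spec
import Fermat.Agent.S55.K.IndH698

/-!
# S55 / layer K / GO3, leaf GO3-SHAP (helper635): Shapiro injectivity on level-constant `H²`

`shapiroInj : ShapiroInjSpec S`, by an explicit cochain formula (no finite-level reduction).

Homogeneous form: `F(a,b,c) = a · ev_{a⁻¹V}(x(a⁻¹b, b⁻¹c))` is a `V`-equivariant homogeneous
2-cocycle of `G` with values in `A`; `ρ : G → V` a `V`-equivariant retraction;
`B(g₀,g₁) = Y(ρg₀,ρg₁) + F(ρg₀,g₀,g₁) - F(ρg₀,ρg₁,g₁)` satisfies `dB = F`, and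
`b(g) = ∑_{tV} t·B(t⁻¹, t⁻¹g) [tV]` satisfies `d b = x`.
-/

set_option autoImplicit false

noncomputable section

namespace Fermat.Agent.S55.K.GO3H535.H635

open groupCohomology Fermat.Agent.S55.PT Fermat.Agent.S55.K

section Abstract

variable {k : Type} [CommRing k] {G : Type} [Group G] (V : Subgroup G) (A : Rep.{0, 0, 0} k G)

theorem ρ_mul_apply (a b : G) (m : A.V) : A.ρ (a * b) m = A.ρ a (A.ρ b m) := by
  rw [map_mul]
  rfl

theorem ρ_inv_apply (a : G) (m : A.V) : A.ρ a⁻¹ (A.ρ a m) = m := by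
  rw [← ρ_mul_apply, inv_mul_cancel, map_one]
  rfl

theorem ρ_apply_inv (a : G) (m : A.V) : A.ρ a (A.ρ a⁻¹ m) = m := by
  rw [← ρ_mul_apply, mul_inv_cancel, map_one]
  rfl

/-- The action on `Ind_V A`, with carrier `(G ⧸ V) →₀ A`. -/
def act (g : G) (m : (G ⧸ V) →₀ A.V) : (G ⧸ V) →₀ A.V := (indG V A).ρ g m

theorem act_add (g : G) (m₁ m₂ : (G ⧸ V) →₀ A.V) :
    act V A g (m₁ + m₂) = act V A g m₁ + act V A g m₂ :=
  map_add ((indG V A).ρ g) m₁ m₂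

theorem act_zero (g : G) : act V A g 0 = 0 := map_zero ((indG V A).ρ g)

theorem act_single (g : G) (x : G ⧸ V) (a : A.V) :
    act V A g (Finsupp.single x a) = Finsupp.single (g • x) (A.ρ g a) :=
  H698.ind_ρ_single (MonoidHom.id G) V A g x a

/-- Coefficients of the action on `Ind_V A`. -/
theorem act_coeff (g : G) (m : (G ⧸ V) →₀ A.V) (c : G ⧸ V) :
    act V A g m c = A.ρ g (m (g⁻¹ • c)) := by
  classical
  induction m using Finsupp.induction_linear with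
  | zero => rw [act_zero, Finsupp.zero_apply, Finsupp.zero_apply, map_zero]
  | add m₁ m₂ h₁ h₂ =>
    rw [act_add, Finsupp.add_apply, h₁, h₂, Finsupp.add_apply, map_add]
  | single x a =>
    rw [act_single, Finsupp.single_apply, Finsupp.single_apply]
    by_cases h : g • x = c
    · rw [if_pos h, if_pos (eq_inv_smul_iff.2 h)]
    · rw [if_neg h, if_neg (fun h' => h (eq_inv_smul_iff.1 h')), map_zero]

/-- Coset representatives. -/
def rep (c : G ⧸ V) : G := Quotient.out c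

theorem mk_rep (c : G ⧸ V) : (QuotientGroup.mk (rep V c) : G ⧸ V) = c :=
  QuotientGroup.out_eq' c

/-- A `V`-equivariant retraction `G → V`. -/
def retr (g : G) : ↥V :=
  ⟨g * rep V (QuotientGroup.mk g⁻¹), by
    have h := mk_rep V (QuotientGroup.mk g⁻¹)
    rw [QuotientGroup.eq] at h
    have h2 := V.inv_mem h
    rwa [mul_inv_rev, inv_inv, inv_inv] at h2⟩

theorem retr_coe (g : G) : (retr V g : G) = g * rep V (QuotientGroup.mk g⁻¹) := rfl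

theorem retr_mul (v : ↥V) (g : G) : retr V ((v : G) * g) = v * retr V g := by
  apply Subtype.ext
  have h : (QuotientGroup.mk ((v : G) * g)⁻¹ : G ⧸ V) = QuotientGroup.mk g⁻¹ := by
    rw [mul_inv_rev]
    exact QuotientGroup.mk_mul_of_mem g⁻¹ (V.inv_mem v.2)
  rw [Subgroup.coe_mul, retr_coe, retr_coe, h, mul_assoc]

theorem retr_mul_right {U : Subgroup G} (hU : U.Normal) (hUV : U ≤ V) (g : G) {u : G}
    (hu : u ∈ U) : ∃ u' : ↥V, (u' : G) ∈ U ∧ retr V (g * u) = retr V g * u' := by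
  have h : (QuotientGroup.mk (g * u)⁻¹ : G ⧸ V) = QuotientGroup.mk g⁻¹ := by
    have h1 : (g * u)⁻¹ = g⁻¹ * (g * u⁻¹ * g⁻¹) := by group
    rw [h1]
    exact QuotientGroup.mk_mul_of_mem g⁻¹ (hUV (hU.conj_mem u⁻¹ (U.inv_mem hu) g))
  set t := rep V (QuotientGroup.mk g⁻¹) with ht
  have hmem : t⁻¹ * u * t ∈ U := by
    have := hU.conj_mem u hu t⁻¹
    rwa [inv_inv] at this
  refine ⟨⟨t⁻¹ * u * t, hUV hmem⟩, hmem, ?_⟩
  apply Subtype.ext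
  rw [Subgroup.coe_mul, retr_coe, retr_coe, h]
  show g * u * t = g * t * (t⁻¹ * u * t)
  group

variable {V A}

/-- The homogeneous `V`-equivariant `A`-valued cochain attached to `x`. -/
def hF (x : G × G → ((G ⧸ V) →₀ A.V)) (a b c : G) : A.V :=
  A.ρ a (x (a⁻¹ * b, b⁻¹ * c) (QuotientGroup.mk a⁻¹))

theorem hF_equiv (x : G × G → ((G ⧸ V) →₀ A.V)) (v : ↥V) (a b c : G) :
    hF x ((v : G) * a) (v * b) (v * c) = A.ρ v (hF x a b c) := by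
  unfold hF
  have h1 : ((v : G) * a)⁻¹ * (v * b) = a⁻¹ * b := by group
  have h2 : ((v : G) * b)⁻¹ * (v * c) = b⁻¹ * c := by group
  have h3 : (QuotientGroup.mk ((v : G) * a)⁻¹ : G ⧸ V) = QuotientGroup.mk a⁻¹ := by
    rw [mul_inv_rev]
    exact QuotientGroup.mk_mul_of_mem a⁻¹ (V.inv_mem v.2)
  rw [h1, h2, h3, ρ_mul_apply]

theorem hF_cocycle {x : G × G → ((G ⧸ V) →₀ A.V)}
    (hx : ∀ g h j : G, x (g * h, j) + x (g, h) = act V A g (x (h, j)) + x (g, h * j))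
    (a b c d : G) :
    hF x b c d - hF x a c d + hF x a b d - hF x a b c = 0 := by
  have h := hx (a⁻¹ * b) (b⁻¹ * c) (c⁻¹ * d)
  have e1 : a⁻¹ * b * (b⁻¹ * c) = a⁻¹ * c := by group
  have e2 : b⁻¹ * c * (c⁻¹ * d) = b⁻¹ * d := by group
  rw [e1, e2] at h
  have h' : A.ρ a ((x (a⁻¹ * c, c⁻¹ * d) + x (a⁻¹ * b, b⁻¹ * c)) (QuotientGroup.mk a⁻¹)) =
      A.ρ a ((act V A (a⁻¹ * b) (x (b⁻¹ * c, c⁻¹ * d)) + x (a⁻¹ * b, b⁻¹ * d))
        (QuotientGroup.mk a⁻¹)) := by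
    rw [h]
  have e3 : act V A (a⁻¹ * b) (x (b⁻¹ * c, c⁻¹ * d)) (QuotientGroup.mk a⁻¹) =
      A.ρ (a⁻¹ * b) (x (b⁻¹ * c, c⁻¹ * d) (QuotientGroup.mk b⁻¹)) := by
    rw [act_coeff]
    have e4 : (a⁻¹ * b)⁻¹ • (QuotientGroup.mk a⁻¹ : G ⧸ V) = QuotientGroup.mk b⁻¹ := by
      show (QuotientGroup.mk ((a⁻¹ * b)⁻¹ * a⁻¹) : G ⧸ V) = _
      congr 1
      group
    rw [e4]
  rw [Finsupp.add_apply, Finsupp.add_apply, e3, map_add, map_add, ← ρ_mul_apply,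
    mul_inv_cancel_left] at h'
  show A.ρ b (x (b⁻¹ * c, c⁻¹ * d) (QuotientGroup.mk b⁻¹)) -
    A.ρ a (x (a⁻¹ * c, c⁻¹ * d) (QuotientGroup.mk a⁻¹)) +
    A.ρ a (x (a⁻¹ * b, b⁻¹ * d) (QuotientGroup.mk a⁻¹)) -
    A.ρ a (x (a⁻¹ * b, b⁻¹ * c) (QuotientGroup.mk a⁻¹)) = 0
  have h3 : A.ρ b (x (b⁻¹ * c, c⁻¹ * d) (QuotientGroup.mk b⁻¹)) =
      A.ρ a (x (a⁻¹ * c, c⁻¹ * d) (QuotientGroup.mk a⁻¹)) +
      A.ρ a (x (a⁻¹ * b, b⁻¹ * c) (QuotientGroup.mk a⁻¹)) -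
      A.ρ a (x (a⁻¹ * b, b⁻¹ * d) (QuotientGroup.mk a⁻¹)) := by
    rw [h']
    abel
  rw [h3]
  abel

theorem hF_coeff (x : G × G → ((G ⧸ V) →₀ A.V)) (g h t : G) :
    x (g, h) (QuotientGroup.mk t) = A.ρ t (hF x t⁻¹ (t⁻¹ * g) (t⁻¹ * g * h)) := by
  unfold hF
  have e1 : t⁻¹⁻¹ * (t⁻¹ * g) = g := by group
  have e2 : (t⁻¹ * g)⁻¹ * (t⁻¹ * g * h) = h := by group
  rw [e1, e2, inv_inv, ρ_apply_inv]

theorem hF_inv {U : Subgroup G} (hU : U.Normal) {x : G × G → ((G ⧸ V) →₀ A.V)}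
    (hxU : ∀ g g' s s' : G, s ∈ U → s' ∈ U → x (g * s, g' * s') = x (g, g'))
    (p q c : G) {s s' : G} (hs : s ∈ U) (hs' : s' ∈ U) :
    hF x p (q * s) (c * s') = hF x p q c := by
  unfold hF
  have e1 : p⁻¹ * (q * s) = p⁻¹ * q * s := by group
  have e2 : (q * s)⁻¹ * (c * s') = q⁻¹ * c * ((q⁻¹ * c)⁻¹ * s⁻¹ * (q⁻¹ * c) * s') := by group
  have hmem : (q⁻¹ * c)⁻¹ * s⁻¹ * (q⁻¹ * c) * s' ∈ U := by
    refine U.mul_mem ?_ hs'
    have := hU.conj_mem s⁻¹ (U.inv_mem hs) (q⁻¹ * c)⁻¹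
    rwa [inv_inv] at this
  rw [e1, e2, hxU _ _ _ _ hs hmem]

/-- The homogeneous form of `y`. -/
def hY (y : ↥V → A.V) (a b : ↥V) : A.V := A.ρ (a : G) (y (a⁻¹ * b))

theorem hY_equiv (y : ↥V → A.V) (v a b : ↥V) :
    hY y (v * a) (v * b) = A.ρ (v : G) (hY (A := A) y a b) := by
  unfold hY
  have e1 : (v * a)⁻¹ * (v * b) = a⁻¹ * b := by group
  rw [e1, Subgroup.coe_mul, ρ_mul_apply]

theorem hY_inv {U : Subgroup G} {y : ↥V → A.V}
    (hyU : ∀ v s : ↥V, (s : G) ∈ U → y (v * s) = y v) (a b : ↥V) {s : ↥V} (hs : (s : G) ∈ U) :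
    hY (A := A) y a (b * s) = hY y a b := by
  unfold hY
  rw [← mul_assoc, hyU _ _ hs]

theorem hF_on_V {x : G × G → ((G ⧸ V) →₀ A.V)} {y : ↥V → A.V}
    (hxy : ∀ v₁ v₂ : ↥V, x ((v₁ : G), (v₂ : G)) (QuotientGroup.mk (1 : G)) =
      A.ρ (v₁ : G) (y v₂) - y (v₁ * v₂) + y v₁) (a b c : ↥V) :
    hF x (a : G) b c = hY (A := A) y b c - hY y a c + hY y a b := by
  unfold hF hY
  have e0 : (QuotientGroup.mk (a : G)⁻¹ : G ⧸ V) = QuotientGroup.mk (1 : G) := by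
    rw [QuotientGroup.eq, inv_inv, mul_one]
    exact a.2
  have e1 : (a : G)⁻¹ * (b : G) = ((a⁻¹ * b : ↥V) : G) := by simp
  have e2 : (b : G)⁻¹ * (c : G) = ((b⁻¹ * c : ↥V) : G) := by simp
  have e3 : (a⁻¹ * b) * (b⁻¹ * c) = a⁻¹ * c := by group
  rw [e0, e1, e2, hxy, e3, map_add, map_sub, ← ρ_mul_apply]
  have e4 : (a : G) * ((a⁻¹ * b : ↥V) : G) = (b : G) := by simp
  rw [e4]

/-- The homogeneous 1-cochain with `d B = F`. -/
def hB (x : G × G → ((G ⧸ V) →₀ A.V)) (y : ↥V → A.V) (g₀ g₁ : G) : A.V :=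
  hY (A := A) y (retr V g₀) (retr V g₁) + hF x (retr V g₀ : G) g₀ g₁
    - hF x (retr V g₀ : G) (retr V g₁ : G) g₁

theorem hB_equiv (x : G × G → ((G ⧸ V) →₀ A.V)) (y : ↥V → A.V) (v : ↥V) (g₀ g₁ : G) :
    hB x y ((v : G) * g₀) (v * g₁) = A.ρ (v : G) (hB x y g₀ g₁) := by
  unfold hB
  rw [retr_mul, retr_mul, hY_equiv, Subgroup.coe_mul, Subgroup.coe_mul, hF_equiv, hF_equiv,
    map_sub, map_add]

theorem hB_d {x : G × G → ((G ⧸ V) →₀ A.V)} {y : ↥V → A.V}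
    (hx : ∀ g h j : G, x (g * h, j) + x (g, h) = act V A g (x (h, j)) + x (g, h * j))
    (hxy : ∀ v₁ v₂ : ↥V, x ((v₁ : G), (v₂ : G)) (QuotientGroup.mk (1 : G)) =
      A.ρ (v₁ : G) (y v₂) - y (v₁ * v₂) + y v₁) (g₀ g₁ g₂ : G) :
    hB x y g₁ g₂ - hB x y g₀ g₂ + hB x y g₀ g₁ = hF x g₀ g₁ g₂ := by
  have hI := hF_cocycle hx (retr V g₀ : G) g₀ g₁ g₂
  have hII := hF_cocycle hx (retr V g₀ : G) (retr V g₁ : G) g₁ g₂
  have hIII := hF_cocycle hx (retr V g₀ : G) (retr V g₁ : G) (retr V g₂ : G) g₂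
  have hIV := hF_on_V hxy (retr V g₀) (retr V g₁) (retr V g₂)
  rw [← sub_eq_zero]
  unfold hB
  have key : hY (A := A) y (retr V g₁) (retr V g₂) + hF x (retr V g₁ : G) g₁ g₂
        - hF x (retr V g₁ : G) (retr V g₂ : G) g₂
      - (hY (A := A) y (retr V g₀) (retr V g₂) + hF x (retr V g₀ : G) g₀ g₂
        - hF x (retr V g₀ : G) (retr V g₂ : G) g₂)
      + (hY (A := A) y (retr V g₀) (retr V g₁) + hF x (retr V g₀ : G) g₀ g₁
        - hF x (retr V g₀ : G) (retr V g₁ : G) g₁) - hF x g₀ g₁ g₂ =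
      (hF x (retr V g₁ : G) g₁ g₂ - hF x (retr V g₀ : G) g₁ g₂
        + hF x (retr V g₀ : G) (retr V g₁ : G) g₂ - hF x (retr V g₀ : G) (retr V g₁ : G) g₁)
      - (hF x (retr V g₁ : G) (retr V g₂ : G) g₂ - hF x (retr V g₀ : G) (retr V g₂ : G) g₂
        + hF x (retr V g₀ : G) (retr V g₁ : G) g₂
        - hF x (retr V g₀ : G) (retr V g₁ : G) (retr V g₂ : G))
      - (hF x g₀ g₁ g₂ - hF x (retr V g₀ : G) g₁ g₂ + hF x (retr V g₀ : G) g₀ g₂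
        - hF x (retr V g₀ : G) g₀ g₁)
      + (hY (A := A) y (retr V g₁) (retr V g₂) - hY y (retr V g₀) (retr V g₂)
        + hY y (retr V g₀) (retr V g₁)
        - hF x (retr V g₀ : G) (retr V g₁ : G) (retr V g₂ : G)) := by
    abel
  rw [key, hI, hII, hIII, hIV]
  abel

theorem hB_inv {U : Subgroup G} (hU : U.Normal) (hUV : U ≤ V)
    {x : G × G → ((G ⧸ V) →₀ A.V)} {y : ↥V → A.V}
    (hxU : ∀ g g' s s' : G, s ∈ U → s' ∈ U → x (g * s, g' * s') = x (g, g'))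
    (hyU : ∀ v s : ↥V, (s : G) ∈ U → y (v * s) = y v) (a b : G) {u : G} (hu : u ∈ U) :
    hB x y a (b * u) = hB x y a b := by
  obtain ⟨u', hu', hr⟩ := retr_mul_right V hU hUV b hu
  unfold hB
  rw [hr, hY_inv hyU _ _ hu', Subgroup.coe_mul, hF_inv hU hxU _ _ _ hu' hu]
  have h1 : hF x (retr V a : G) a (b * u) = hF x (retr V a : G) a b := by
    have := hF_inv hU hxU (retr V a : G) a b (U.one_mem) hu
    rwa [mul_one] at this
  rw [h1]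

variable (V A)

/-- The primitive of `x`. -/
def hb [Finite (G ⧸ V)] (x : G × G → ((G ⧸ V) →₀ A.V)) (y : ↥V → A.V) (g : G) :
    (G ⧸ V) →₀ A.V :=
  Finsupp.equivFunOnFinite.symm
    (fun c => A.ρ (rep V c) (hB x y (rep V c)⁻¹ ((rep V c)⁻¹ * g)))

variable {V A}

theorem hb_coeff [Finite (G ⧸ V)] (x : G × G → ((G ⧸ V) →₀ A.V)) (y : ↥V → A.V) (g t : G) :
    hb V A x y g (QuotientGroup.mk t) = A.ρ t (hB x y t⁻¹ (t⁻¹ * g)) := by
  show A.ρ (rep V (QuotientGroup.mk t)) (hB x y (rep V (QuotientGroup.mk t))⁻¹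
    ((rep V (QuotientGroup.mk t))⁻¹ * g)) = _
  obtain ⟨v, hv⟩ := QuotientGroup.mk_out_eq_mul V t
  have hr : rep V (QuotientGroup.mk t) = t * v := hv
  rw [hr]
  have e1 : (t * (v : G))⁻¹ = ((v⁻¹ : ↥V) : G) * t⁻¹ := by simp
  have e2 : (t * (v : G))⁻¹ * g = ((v⁻¹ : ↥V) : G) * (t⁻¹ * g) := by
    rw [e1, mul_assoc]
  rw [e2, e1, hB_equiv, ρ_mul_apply, Subgroup.coe_inv, ρ_apply_inv]

theorem hb_inv [Finite (G ⧸ V)] {U : Subgroup G} (hU : U.Normal) (hUV : U ≤ V)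
    {x : G × G → ((G ⧸ V) →₀ A.V)} {y : ↥V → A.V}
    (hxU : ∀ g g' s s' : G, s ∈ U → s' ∈ U → x (g * s, g' * s') = x (g, g'))
    (hyU : ∀ v s : ↥V, (s : G) ∈ U → y (v * s) = y v) (g : G) {u : G} (hu : u ∈ U) :
    hb V A x y (g * u) = hb V A x y g := by
  refine Finsupp.ext (fun c => ?_)
  induction c using QuotientGroup.induction_on with
  | H t =>
    rw [hb_coeff, hb_coeff, ← mul_assoc, hB_inv hU hUV hxU hyU _ _ hu]

theorem hb_d [Finite (G ⧸ V)] {x : G × G → ((G ⧸ V) →₀ A.V)} {y : ↥V → A.V}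
    (hx : ∀ g h j : G, x (g * h, j) + x (g, h) = act V A g (x (h, j)) + x (g, h * j))
    (hxy : ∀ v₁ v₂ : ↥V, x ((v₁ : G), (v₂ : G)) (QuotientGroup.mk (1 : G)) =
      A.ρ (v₁ : G) (y v₂) - y (v₁ * v₂) + y v₁) (g h : G) :
    act V A g (hb V A x y h) - hb V A x y (g * h) + hb V A x y g = x (g, h) := by
  refine Finsupp.ext (fun c => ?_)
  induction c using QuotientGroup.induction_on with
  | H t =>
    have e0 : g⁻¹ • (QuotientGroup.mk t : G ⧸ V) = QuotientGroup.mk (g⁻¹ * t) := rfl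
    rw [Finsupp.add_apply, Finsupp.sub_apply, act_coeff, e0, hb_coeff, hb_coeff, hb_coeff,
      hF_coeff, ← ρ_mul_apply, mul_inv_cancel_left, ← hB_d hx hxy, map_add, map_sub]
    have e1 : (g⁻¹ * t)⁻¹ = t⁻¹ * g := by group
    have e3 : t⁻¹ * (g * h) = t⁻¹ * g * h := by group
    rw [e1, e3]

/-- **Shapiro injectivity on level-constant `H²`, abstract form.** -/
theorem shapiroInj_abstract (L : LevelSys G) (hN : L.NormalCofinal) (hV : V.FiniteIndex)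
    (x : G × G → (indG V A)) (hx : x ∈ L.Z2 (indG V A)) (y : ↥V → A.V)
    (hy : ∃ U ∈ L.levels, U ≤ V ∧ ∀ v s : ↥V, (s : G) ∈ U → y (v * s) = y v)
    (hxy : ∀ v₁ v₂ : ↥V, (show (G ⧸ V) →₀ A.V from x ((v₁ : G), (v₂ : G)))
        (QuotientGroup.mk (1 : G)) = A.ρ (v₁ : G) (y v₂) - y (v₁ * v₂) + y v₁) :
    x ∈ L.B2 (indG V A) := by
  have : Finite (G ⧸ V) := Subgroup.finite_quotient_of_finiteIndex
  obtain ⟨hxc, U₁, hU₁, hxU₁⟩ := hx
  obtain ⟨U₂, hU₂, hU₂V, hyU₂⟩ := hy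
  obtain ⟨U₃, hU₃, hU₃le⟩ := L.directed U₁ hU₁ U₂ hU₂
  obtain ⟨U, hU, hUle, hUn⟩ := hN U₃ hU₃
  have hUU₁ : U ≤ U₁ := fun s hs => (hU₃le (hUle hs)).1
  have hUU₂ : U ≤ U₂ := fun s hs => (hU₃le (hUle hs)).2
  have hUV : U ≤ V := hUU₂.trans hU₂V
  let x' : G × G → ((G ⧸ V) →₀ A.V) := x
  have hx' : ∀ g h j : G, x' (g * h, j) + x' (g, h) = act V A g (x' (h, j)) + x' (g, h * j) :=
    (mem_cocycles₂_iff (A := indG V A) x).1 hxc
  have hxU : ∀ g g' s s' : G, s ∈ U → s' ∈ U → x' (g * s, g' * s') = x' (g, g') :=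
    fun g g' s s' hs hs' => hxU₁ g g' s s' (hUU₁ hs) (hUU₁ hs')
  have hyU : ∀ v s : ↥V, (s : G) ∈ U → y (v * s) = y v :=
    fun v s hs => hyU₂ v s (hUU₂ hs)
  refine ⟨hb V A x' y, ⟨U, hU, fun g s hs => hb_inv hUn hUV hxU hyU g hs⟩, ?_⟩
  funext gh
  obtain ⟨g, h⟩ := gh
  exact hb_d hx' hxy g h

end Abstract

/-- **GO3-SHAP.** -/
theorem shapiroInj (S : Finset Nat.Primes) : ShapiroInjSpec S := by
  intro A V hV x hx hy
  obtain ⟨y, hyU, hxy⟩ := hy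
  exact shapiroInj_abstract (globalLevels S) (H698.globalLevels_normalCofinal S)
    (H698.globalLevels_finiteIndex S V hV) x hx y hyU hxy

end Fermat.Agent.S55.K.GO3H535.H635

end
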