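import Fermat.Agent.S55.K.GO3H535.Main
import Fermat.Agent.S55.K.GO3H535.CapDivH510
import Fermat.Agent.S55.K.GO3H535.ShapiroH635

/-!
# S55 / K / GO3 (helper535): `HasseESpec` from block REC alone

`hasseE : HassePrincipleSpec p → LocalInvSystem → K.HasseESpec p S`

= `hasseE_of` (helper535) + `H635.shapiroInj` (helper635) + `H510.capDiv` (helper510).
-/

set_option autoImplicit false

noncomputable section

namespace Fermat.Agent.S55.K.GO3H535

open Fermat.Agent.S55.G.Rec

/-- **GO3** (`K.HasseESpec`) from the Hasse principle for Brauer groups and a local invariant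
system. -/
theorem hasseE (p : ℕ) [Fact p.Prime] (S : Finset Nat.Primes) (hHP : HassePrincipleSpec p)
    (I : LocalInvSystem) : HasseESpec p S :=
  hasseE_of p S (H635.shapiroInj S) (H510.capDiv p S) hHP I

end Fermat.Agent.S55.K.GO3H535

end
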