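import Fermat.Agent.S55.K.GO3H535.Spec
import Fermat.Agent.S55.H175.LocalDecompPrime
import Fermat.Agent.S55.G.Rec.SupportFiniteH181

/-!
# S55 / K / GO3 (helper535): places of `ℚ̄` above a prime outside `S`

* `loc_mem_inertia` : the image in `G_ℚ` of an inertial element of `G_{ℚ_q}` lies in the inertia
  group of the Prelude place `padicPlace q`;
* `inertial_mem_level` : for a level `F` unramified outside `S` and `q ∉ S` it fixes `F`;
* `norm_eq_one_of_isSUnit` : `S`-units have norm `1` under every embedding `ι_q ∘ g`, `q ∉ S`.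
-/

set_option autoImplicit false

noncomputable section

namespace Fermat.Agent.S55.K.GO3H535

open groupCohomology Fermat.Agent.S55.PT Fermat.Agent.S55.Bridge Fermat.Agent.S55.G.Rec
open scoped Pointwise

section Place

variable (q : ℕ) [Fact q.Prime]

lemma padicPlace_liesOver535 : (padicPlace q).LiesOverPrime q :=
  Fermat.Agent.S55.H175.primeLocalPlace_liesOverPrime ⟨q, Fact.out⟩

lemma mem_nonunits_padicPlace535 (x : Qbar) :
    x ∈ (padicPlace q).nonunits ↔ ‖padicEmbedding q x‖ < 1 := by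
  rw [Bridge.mem_nonunits_iff_inv_not_mem]
  rcases eq_or_ne x 0 with rfl | hx
  · simp
  · have hne : padicEmbedding q x ≠ 0 := (map_ne_zero (padicEmbedding q)).mpr hx
    have hpos : 0 < ‖padicEmbedding q x‖ := norm_pos_iff.mpr hne
    simp only [hx, false_or]
    rw [Fermat.Agent.S55.H175.mem_padicPlace_iff_norm, map_inv₀, norm_inv, not_le,
      one_lt_inv₀ hpos]

/-- The image in `G_ℚ` of an inertial element of `G_{ℚ_q}` is in the inertia group of the place
`padicPlace q`. -/
lemma loc_mem_inertia (τ : PadicAlgCl q ≃ₐ[ℚ_[q]] PadicAlgCl q) (hτ : IsInertial q τ) :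
    localGaloisToGlobal q τ ∈ (padicPlace q).inertiaSubgroupIn ℚ := by
  rw [Bridge.mem_inertiaSubgroupIn_iff]
  refine ⟨localGaloisToGlobal_mem_decompositionSubgroup q τ, fun z hz => ?_⟩
  rw [mem_nonunits_padicPlace535, map_sub, padicEmbedding_localGaloisToGlobal]
  exact hτ _ ((Fermat.Agent.S55.H175.mem_padicPlace_iff_norm q).1 hz)

variable {q}

/-- An inertial element at `q ∉ S` fixes every level unramified outside `S`. -/
lemma inertial_mem_level {S : Finset Nat.Primes} (hq : (⟨q, Fact.out⟩ : Nat.Primes) ∉ S)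
    {F : IntermediateField ℚ Qbar} (hF : F.IsUnramifiedOutside S)
    (τ : PadicAlgCl q ≃ₐ[ℚ_[q]] PadicAlgCl q) (hτ : IsInertial q τ) :
    localGaloisToGlobal q τ ∈ F.fixingSubgroup :=
  hF.2 ⟨q, Fact.out⟩ hq (padicPlace q) (padicPlace_liesOver535 q) (loc_mem_inertia q τ hτ)

/-- A valuation subring of `ℚ̄` over `q ∉ S` is outside `S`. -/
lemma outsideS_of_liesOver {S : Finset Nat.Primes} (hq : (⟨q, Fact.out⟩ : Nat.Primes) ∉ S)
    {A : ValuationSubring Qbar} (hA : A.LiesOverPrime q) : OutsideS S A := by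
  intro q' hq' h
  have hne : q ≠ (q' : ℕ) := by
    rintro rfl
    exact hq hq'
  have h1 := Bridge.val_prime_eq_one hA (Fact.out : q.Prime) q'.2 hne
  have h2 : A.valuation (((q' : ℕ) : Qbar)) < 1 := (A.mem_nonunits_iff).mp h
  rw [h1] at h2
  exact lt_irrefl _ h2

/-- `S`-units have norm `1` under every embedding `ι_q ∘ g`, `q ∉ S`. -/
lemma norm_eq_one_of_isSUnit {S : Finset Nat.Primes} (hq : (⟨q, Fact.out⟩ : Nat.Primes) ∉ S)
    {u : Qbarˣ} (hu : IsSUnit S u) (g : GQ) : ‖padicEmbedding q (g (u : Qbar))‖ = 1 := by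
  have hA : OutsideS S (padicPlace q) := outsideS_of_liesOver hq (padicPlace_liesOver535 q)
  have h := (hu.smul g) (padicPlace q) hA
  have h1 : ‖padicEmbedding q (g (u : Qbar))‖ ≤ 1 :=
    (Fermat.Agent.S55.H175.mem_padicPlace_iff_norm q).1 h.1
  have h2 : ‖padicEmbedding q ((g (u : Qbar))⁻¹)‖ ≤ 1 := by
    have := (Fermat.Agent.S55.H175.mem_padicPlace_iff_norm q).1 h.2
    simpa using this
  rw [map_inv₀, norm_inv] at h2
  have hne : padicEmbedding q (g (u : Qbar)) ≠ 0 :=
    (map_ne_zero (padicEmbedding q)).mpr ((map_ne_zero g).mpr u.ne_zero)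
  have hpos : 0 < ‖padicEmbedding q (g (u : Qbar))‖ := norm_pos_iff.mpr hne
  have h3 : 1 ≤ ‖padicEmbedding q (g (u : Qbar))‖ := by
    rwa [inv_le_one₀ hpos] at h2
  exact le_antisymm h1 h3

end Place

end Fermat.Agent.S55.K.GO3H535

end
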