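import Fermat.Agent.S55.K.GO3H535.Basic
import Fermat.Agent.S55.K.GO3H535.Place

/-!
# S55 / K / GO3 (helper535): from `Ind_V 𝔼` to the Brauer group of `K_V`, local triviality

* `ev1 S V : Ind_V 𝔼 → ℚ̄ˣ` : evaluation at the trivial coset, `V`-equivariant;
* `xV x` : the restriction to `V` of `ev1 ∘ x`, a level cocycle of `V` in `ℚ̄ˣ`;
* `xV_ptors` : `p • x ∈ B²` ⇒ `p • xV x` is a level coboundary;
* `locS` : local triviality at `(q, g)`, `q ∈ S`, from the hypothesis of `HasseESpec`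
  (conjugation homotopy);
* `locGood` : local triviality at `(q, g)`, `q ∉ S` (`H181.locBr_eq_zero_of_good`);
* `exists_primitive` : with the Hasse principle, `xV x = d z`, `z` a level cochain of `V`.
-/

set_option autoImplicit false

noncomputable section

namespace Fermat.Agent.S55.K.GO3H535

open groupCohomology Fermat.Agent.S55.PT Fermat.Agent.S55.Bridge Fermat.Agent.S55.G.Rec
open scoped Pointwise

variable (S : Finset Nat.Primes) (V : Subgroup GQ)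

/-- evaluation at the trivial coset followed by the inclusion `𝔼 → ℚ̄ˣ`. -/
def ev1 : indG V (sUnits S) →ₗ[ℤ] gModOn V :=
  (sUnitsIncl S).comp (evC (MonoidHom.id GQ) V (sUnits S) ((1 : GQ) : GQ ⧸ V))

lemma ev1_apply (f : indG V (sUnits S)) :
    ev1 S V f = sUnitsIncl S (evC (MonoidHom.id GQ) V (sUnits S) ((1 : GQ) : GQ ⧸ V) f) := rfl

lemma ev1_isSUnit (f : indG V (sUnits S)) : IsSUnit S (Additive.toMul (ev1 S V f) : Qbarˣ) :=
  (evC (MonoidHom.id GQ) V (sUnits S) ((1 : GQ) : GQ ⧸ V) f).2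

lemma coset_fixed_of_mem {v : GQ} (hv : v ∈ V) :
    (MonoidHom.id GQ) v • ((1 : GQ) : GQ ⧸ V) = ((1 : GQ) : GQ ⧸ V) := by
  show ((v * 1 : GQ) : GQ ⧸ V) = ((1 : GQ) : GQ ⧸ V)
  rw [mul_one, QuotientGroup.eq, mul_one]
  exact V.inv_mem hv

lemma ev1_ρ (v : ↥V) (f : indG V (sUnits S)) :
    ev1 S V ((indG V (sUnits S)).ρ (V.subtype v) f) = (gModOn V).ρ v (ev1 S V f) := by
  rw [ev1_apply, ev1_apply]
  have h := evC_ρ_of_fixed (MonoidHom.id GQ) V (sUnits S) (v : GQ) ((1 : GQ) : GQ ⧸ V)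
    (coset_fixed_of_mem V v.2) f
  show sUnitsIncl S (evC (MonoidHom.id GQ) V (sUnits S) ((1 : GQ) : GQ ⧸ V)
    ((ind (MonoidHom.id GQ) V (sUnits S)).ρ (v : GQ) f)) = _
  rw [h]
  rfl

/-- the restriction to `V` of `ev1 ∘ x`. -/
def xV (x : GQ × GQ → indG V (sUnits S)) : ↥V × ↥V → gModOn V :=
  cochainsPullPush₂ V.subtype (ev1 S V) x

lemma xV_apply (x : GQ × GQ → indG V (sUnits S)) (v w : ↥V) :
    xV S V x (v, w) = ev1 S V (x ((v : GQ), (w : GQ))) := rfl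

/-- the restriction to `V` of `ev1 ∘ b`. -/
def bV (b : GQ → indG V (sUnits S)) : ↥V → gModOn V :=
  cochainsPullPush₁ V.subtype (ev1 S V) b

lemma bV_apply (b : GQ → indG V (sUnits S)) (v : ↥V) :
    bV S V b v = ev1 S V (b (v : GQ)) := rfl

variable {S V}

lemma isLevelConstant₂_of_isLC₂ {X : Type*} {x : GQ × GQ → X} (hx : (globalLevels S).IsLC₂ x) :
    IsLevelConstant₂ V.subtype (x ∘ Prod.map V.subtype V.subtype) := by
  obtain ⟨U, ⟨F, hF, rfl⟩, h⟩ := hx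
  exact ⟨F, hF.1, fun g g' s s' hs hs' => h _ _ _ _ hs hs'⟩

lemma isLevelConstant₁_of_isLC₁ {X : Type*} {b : GQ → X} (hb : (globalLevels S).IsLC₁ b) :
    IsLevelConstant₁ V.subtype (b ∘ V.subtype) := by
  obtain ⟨U, ⟨F, hF, rfl⟩, h⟩ := hb
  exact ⟨F, hF.1, fun g s hs => h _ _ hs⟩

lemma xV_mem {x : GQ × GQ → indG V (sUnits S)} (hx : x ∈ (globalLevels S).Z2 (indG V (sUnits S))) :
    xV S V x ∈ levelCocycles₂ V.subtype (gModOn V) :=
  ⟨cochainsPullPush₂_mem_cocycles₂ V.subtype (ev1 S V) (ev1_ρ S V) hx.1,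
    ((isLevelConstant₂_of_isLC₂ hx.2).comp (ev1 S V) :)⟩

lemma xV_ptors {x : GQ × GQ → indG V (sUnits S)} {n : ℕ}
    (hx : n • x ∈ (globalLevels S).B2 (indG V (sUnits S))) :
    n • xV S V x ∈ levelCoboundaries₂ V.subtype (gModOn V) := by
  obtain ⟨b, hb, hbx⟩ := hx
  rw [mem_levelCoboundaries₂_iff]
  refine ⟨bV S V b, ((isLevelConstant₁_of_isLC₁ hb).comp (ev1 S V) :), ?_⟩
  have h := cochainsPullPush₂_d₁₂ V.subtype (ev1 S V) (ev1_ρ S V) b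
  rw [hbx, map_nsmul] at h
  exact h.symm

/-! ### Local triviality at the primes outside `S` -/

lemma isOpenQ_of_level (hV : V ∈ (globalLevels S).levels) : IsOpenQ V := by
  obtain ⟨F0, hF0, rfl⟩ := hV
  exact ⟨F0, hF0.1, le_rfl⟩

lemma locGood (I : LocalInvSystem) (hV : V ∈ (globalLevels S).levels)
    {x : GQ × GQ → indG V (sUnits S)} (hx : x ∈ (globalLevels S).Z2 (indG V (sUnits S)))
    (q : ℕ) [Fact q.Prime] (hq : (⟨q, Fact.out⟩ : Nat.Primes) ∉ S) (g : GQ) :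
    locBr q g V (continuousH2π V.subtype (gModOn V) ⟨xV S V x, xV_mem hx⟩) = 0 := by
  obtain ⟨U, ⟨F, hF, rfl⟩, hconst⟩ := hx.2
  obtain ⟨L, hL, hLgal, hFL⟩ := Bridge.exists_galois_level_ge S F hF
  have : Normal ℚ L := hLgal.to_normal
  refine H181.locBr_eq_zero_of_good I (isOpenQ_of_level hV) ⟨xV S V x, xV_mem hx⟩ L ?_ q ?_ ?_ g
  · intro g g' s s' hs hs'
    show ev1 S V (x _) = ev1 S V (x _)
    congr 1
    exact hconst _ _ _ _ (IntermediateField.fixingSubgroup_antitone hFL hs)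
      (IntermediateField.fixingSubgroup_antitone hFL hs')
  · intro g₁ h₁ g'
    exact norm_eq_one_of_isSUnit hq (ev1_isSUnit S V _) g'
  · intro τ hτ
    exact inertial_mem_level hq hL τ hτ

/-! ### Local triviality at the primes of `S` -/

section LocS

/-- the `Fact` instance used by the Prelude for `q : Nat.Primes`. -/
local instance factPrime535 (q : Nat.Primes) : Fact ((q : ℕ).Prime) := ⟨q.2⟩

variable (q : Nat.Primes) (g : GQ)

lemma rl_eq (τ : PadicAlgCl (q : ℕ) ≃ₐ[ℚ_[(q : ℕ)]] PadicAlgCl (q : ℕ)) :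
    rl q τ = localGaloisToGlobal (q : ℕ) τ := rfl

/-- the coset `g⁻¹V` is fixed by `loc τ`, `τ ∈ locSub q g V`. -/
lemma coset_fixed_loc (τ : ↥(locSub (q : ℕ) g V)) :
    rl q (τ : PadicAlgCl (q : ℕ) ≃ₐ[ℚ_[(q : ℕ)]] PadicAlgCl (q : ℕ)) •
      (((g⁻¹ : GQ)) : GQ ⧸ V) = (((g⁻¹ : GQ)) : GQ ⧸ V) := by
  have hτ : g * localGaloisToGlobal (q : ℕ) τ * g⁻¹ ∈ V := τ.2
  show ((rl q (τ : PadicAlgCl (q : ℕ) ≃ₐ[ℚ_[(q : ℕ)]] PadicAlgCl (q : ℕ)) * g⁻¹ : GQ) : GQ ⧸ V)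
    = _
  rw [QuotientGroup.eq, rl_eq]
  have := V.inv_mem hτ
  convert this using 1
  group

variable (S V)

/-- the first part of the local primitive: evaluation of `Y` at the coset `g⁻¹V`. -/
def yLoc₁ (Y : Gl q → ind (rl q) V (Tow.unitsQpbar q)) :
    ↥(locSub (q : ℕ) g V) → lModOn (q : ℕ) (locSub (q : ℕ) g V) :=
  fun τ => evC (rl q) V (Tow.unitsQpbar q) (((g⁻¹ : GQ)) : GQ ⧸ V)
    (Y (τ : PadicAlgCl (q : ℕ) ≃ₐ[ℚ_[(q : ℕ)]] PadicAlgCl (q : ℕ)))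

/-- the second part of the local primitive: the conjugation homotopy. -/
def yLoc₂ (x : GQ × GQ → indG V (sUnits S)) :
    ↥(locSub (q : ℕ) g V) → lModOn (q : ℕ) (locSub (q : ℕ) g V) :=
  fun τ => locPush (q : ℕ) g V (ev1 S V (conjHom x g
    (localGaloisToGlobal (q : ℕ) (τ : PadicAlgCl (q : ℕ) ≃ₐ[ℚ_[(q : ℕ)]] PadicAlgCl (q : ℕ)))))

variable {S V}

lemma locPush_ev1_ρ (f : indG V (sUnits S)) :
    locPush (q : ℕ) g V (ev1 S V ((indG V (sUnits S)).ρ g f)) =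
      evC (rl q) V (Tow.unitsQpbar q) (((g⁻¹ : GQ)) : GQ ⧸ V) (indLocE q S V f) := by
  have hc : (MonoidHom.id GQ) g • (((g⁻¹ : GQ)) : GQ ⧸ V) = ((1 : GQ) : GQ ⧸ V) := by
    show ((g * g⁻¹ : GQ) : GQ ⧸ V) = _
    rw [mul_inv_cancel]
  have h := evC_ρ (MonoidHom.id GQ) V (sUnits S) g (((g⁻¹ : GQ)) : GQ ⧸ V) f
  rw [hc] at h
  rw [ev1_apply]
  show locPush (q : ℕ) g V (sUnitsIncl S (evC (MonoidHom.id GQ) V (sUnits S) ((1 : GQ) : GQ ⧸ V)
    ((ind (MonoidHom.id GQ) V (sUnits S)).ρ g f))) = _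
  rw [h]
  apply Additive.toMul.injective
  apply Units.ext
  have hg : ∀ z : Qbar, (g⁻¹ : GQ) (g z) = z := fun z => AlgEquiv.symm_apply_apply g z
  exact congrArg (padicEmbedding (q : ℕ)) (hg _)

lemma locCochain_eq {x : GQ × GQ → indG V (sUnits S)} (hx : x ∈ cocycles₂ (indG V (sUnits S)))
    (Y : Gl q → ind (rl q) V (Tow.unitsQpbar q))
    (hY : (d₁₂ (ind (rl q) V (Tow.unitsQpbar q))).hom Y =
      (indLocE q S V ∘ x ∘ Prod.map (rl q) (rl q) :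
        Gl q × Gl q → ind (rl q) V (Tow.unitsQpbar q))) :
    locCochain₂ (q : ℕ) g V (xV S V x) =
      (d₁₂ (lModOn (q : ℕ) (locSub (q : ℕ) g V))).hom (yLoc₁ V q g Y + yLoc₂ S V q g x) := by
  funext ⟨τ₁, τ₂⟩
  rw [d₁₂_hom_apply]
  simp only [Pi.add_apply]
  show locPush (q : ℕ) g V (ev1 S V (x (g * localGaloisToGlobal (q : ℕ) τ₁ * g⁻¹,
    g * localGaloisToGlobal (q : ℕ) τ₂ * g⁻¹))) = _
  rw [conj_homotopy x hx g _ _]
  simp only [map_add, map_sub]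
  rw [locPush_ev1_ρ]
  have hA := congrArg (evC (rl q) V (Tow.unitsQpbar q) (((g⁻¹ : GQ)) : GQ ⧸ V))
    (congrFun hY ((τ₁ : PadicAlgCl (q : ℕ) ≃ₐ[ℚ_[(q : ℕ)]] PadicAlgCl (q : ℕ)),
      (τ₂ : PadicAlgCl (q : ℕ) ≃ₐ[ℚ_[(q : ℕ)]] PadicAlgCl (q : ℕ))))
  rw [d₁₂_hom_apply] at hA
  simp only [map_add, map_sub] at hA
  rw [evC_ρ_of_fixed _ _ _ _ _ (coset_fixed_loc q g τ₁)] at hA
  have hB := locPush_equivariant (q : ℕ) g V τ₁
    (ev1 S V (conjHom x g (localGaloisToGlobal (q : ℕ) τ₂)))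
  rw [← ev1_ρ] at hB
  have hmul : localGaloisToGlobal (q : ℕ) τ₁ * localGaloisToGlobal (q : ℕ) τ₂ =
      localGaloisToGlobal (q : ℕ) ((τ₁ * τ₂ : ↥(locSub (q : ℕ) g V)) :
        PadicAlgCl (q : ℕ) ≃ₐ[ℚ_[(q : ℕ)]] PadicAlgCl (q : ℕ)) := by
    rw [Subgroup.coe_mul, map_mul]
  rw [hmul]
  have key : ∀ (a b c d a' b' c' d' : lModOn (q : ℕ) (locSub (q : ℕ) g V)),
      a' - b' + c' = a → b = d' →
      a + b - c + d = (a' + d') - (b' + c) + (c' + d) := by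
    intro a b c d a' b' c' d' h1 h2
    subst h1 h2
    abel
  exact key _ _ _ _ _ _ _ _ hA hB

lemma yLoc₁_lc {Y : Gl q → ind (rl q) V (Tow.unitsQpbar q)} (hY : (localLevels q).IsLC₁ Y) :
    IsLevelConstant₁ (lHom (q : ℕ) (locSub (q : ℕ) g V)) (yLoc₁ V q g Y) := by
  obtain ⟨U, ⟨F, hF, rfl⟩, h⟩ := hY
  refine ⟨F, hF, fun τ σ hσ => ?_⟩
  show evC (rl q) V (Tow.unitsQpbar q) _ (Y _) = evC (rl q) V (Tow.unitsQpbar q) _ (Y _)
  congr 1
  exact h _ _ hσ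

lemma conjHom_mul_right {x : GQ × GQ → indG V (sUnits S)} {F : IntermediateField ℚ Qbar}
    (h : ∀ g g' s s' : GQ, s ∈ F.fixingSubgroup → s' ∈ F.fixingSubgroup →
      x (g * s, g' * s') = x (g, g'))
    (a s : GQ) (hs1 : s ∈ F.fixingSubgroup) (hs2 : g * s * g⁻¹ ∈ F.fixingSubgroup) :
    conjHom x g (a * s) = conjHom x g a := by
  unfold conjHom
  have e1 : g * (a * s) * g⁻¹ = (g * a * g⁻¹) * (g * s * g⁻¹) := by group
  rw [e1]
  have h1 := h (g * a * g⁻¹) g (g * s * g⁻¹) 1 hs2 (one_mem _)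
  have h2 := h g a 1 s (one_mem _) hs1
  rw [mul_one] at h1 h2
  rw [h1, h2]

lemma yLoc₂_lc {x : GQ × GQ → indG V (sUnits S)} (hx : (globalLevels S).IsLC₂ x) :
    IsLevelConstant₁ (lHom (q : ℕ) (locSub (q : ℕ) g V)) (yLoc₂ S V q g x) := by
  obtain ⟨U, ⟨F, hF, rfl⟩, h⟩ := hx
  haveI := hF.1
  haveI := finiteDimensional_map_inv F g
  refine ⟨F ⊔ F.map (g⁻¹ : GQ).toAlgHom, inferInstance, fun τ σ hσ => ?_⟩
  have hσ1 : localGaloisToGlobal (q : ℕ)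
      (σ : PadicAlgCl (q : ℕ) ≃ₐ[ℚ_[(q : ℕ)]] PadicAlgCl (q : ℕ)) ∈ F.fixingSubgroup :=
    IntermediateField.fixingSubgroup_antitone le_sup_left hσ
  have hσ2 : g * localGaloisToGlobal (q : ℕ)
      (σ : PadicAlgCl (q : ℕ) ≃ₐ[ℚ_[(q : ℕ)]] PadicAlgCl (q : ℕ)) * g⁻¹ ∈ F.fixingSubgroup :=
    (mem_fixingSubgroup_map_inv F g _).1
      (IntermediateField.fixingSubgroup_antitone le_sup_right hσ)
  show locPush (q : ℕ) g V (ev1 S V (conjHom x g (localGaloisToGlobal (q : ℕ)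
      ((τ * σ : ↥(locSub (q : ℕ) g V)) : PadicAlgCl (q : ℕ) ≃ₐ[ℚ_[(q : ℕ)]] PadicAlgCl (q : ℕ)))))
    = locPush (q : ℕ) g V (ev1 S V (conjHom x g (localGaloisToGlobal (q : ℕ)
      (τ : PadicAlgCl (q : ℕ) ≃ₐ[ℚ_[(q : ℕ)]] PadicAlgCl (q : ℕ)))))
  rw [Subgroup.coe_mul, map_mul, conjHom_mul_right g h _ _ hσ1 hσ2]

/-- **Local triviality at `q ∈ S`.** -/
lemma locS {x : GQ × GQ → indG V (sUnits S)} (hx : x ∈ (globalLevels S).Z2 (indG V (sUnits S)))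
    (hloc : (indLocE q S V ∘ x ∘ Prod.map (rl q) (rl q) :
        Gl q × Gl q → ind (rl q) V (Tow.unitsQpbar q)) ∈
      (localLevels q).B2 (ind (rl q) V (Tow.unitsQpbar q))) :
    locBr (q : ℕ) g V (continuousH2π V.subtype (gModOn V) ⟨xV S V x, xV_mem hx⟩) = 0 := by
  obtain ⟨Y, hYlc, hY⟩ := hloc
  rw [locBr_mk, continuousH2π_eq_zero_iff, mem_levelCoboundaries₂_iff]
  refine ⟨yLoc₁ V q g Y + yLoc₂ S V q g x, (yLoc₁_lc q g hYlc).add (yLoc₂_lc q g hx.2), ?_⟩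
  exact (locCochain_eq q g hx.1 Y hY).symm

end LocS

/-! ### The Hasse principle -/

/-- With the Hasse principle: the evaluation `xV x` of a `p`-torsion class of `Ind_V 𝔼` which is
locally trivial at the primes of `S` is the coboundary of a level cochain of `V` in `ℚ̄ˣ`. -/
theorem exists_primitive (p : ℕ) (hHP : HassePrincipleSpec p) (I : LocalInvSystem)
    (hV : V ∈ (globalLevels S).levels)
    {x : GQ × GQ → indG V (sUnits S)} (hx : x ∈ (globalLevels S).Z2 (indG V (sUnits S)))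
    (hp : p • x ∈ (globalLevels S).B2 (indG V (sUnits S)))
    (hloc : ∀ q ∈ S, (indLocE q S V ∘ x ∘ Prod.map (rl q) (rl q) :
        Gl q × Gl q → ind (rl q) V (Tow.unitsQpbar q)) ∈
      (localLevels q).B2 (ind (rl q) V (Tow.unitsQpbar q))) :
    ∃ z : ↥V → gModOn V, IsLevelConstant₁ V.subtype z ∧
      (d₁₂ (gModOn V)).hom z = xV S V x := by
  have h0 : continuousH2π V.subtype (gModOn V) ⟨xV S V x, xV_mem hx⟩ = 0 := by
    refine hHP V (isOpenQ_of_level hV) _ ⟨1, ?_⟩ ?_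
    · rw [pow_one, ← map_nsmul, continuousH2π_eq_zero_iff]
      exact xV_ptors hp
    · intro q inst g
      by_cases hq : (⟨q, inst.out⟩ : Nat.Primes) ∈ S
      · exact locS ⟨q, inst.out⟩ g hx (hloc _ hq)
      · exact locGood I hV hx q hq g
  rw [continuousH2π_eq_zero_iff, mem_levelCoboundaries₂_iff] at h0
  exact h0

end Fermat.Agent.S55.K.GO3H535

end
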