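import Fermat.Agent.S55.K.GO3H535.Descent

/-!
# S55 / K / GO3 (helper535): `HasseESpec` from the REC model

`hasseE_of : ShapiroInjSpec S → CapDivSpec p S → HassePrincipleSpec p → LocalInvSystem →
    HasseESpec p S`

See `Spec.lean` for the route.  Inputs:
* `G.Rec.HassePrincipleSpec p`, `G.Rec.LocalInvSystem` : block REC (helper1);
* `CapDivSpec p S` : capitulation of `p`-classes by Kummer extensions (arithmetic leaf);
* `ShapiroInjSpec S` : injectivity of Shapiro's map on level-constant `H²` (formal leaf).
-/

set_option autoImplicit false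

noncomputable section

namespace Fermat.Agent.S55.K.GO3H535

open groupCohomology Fermat.Agent.S55.PT Fermat.Agent.S55.Bridge Fermat.Agent.S55.G.Rec

/-- **GO3** (`K.HasseESpec`) from the Hasse principle for the Brauer groups of number fields. -/
theorem hasseE_of (p : ℕ) [Fact p.Prime] (S : Finset Nat.Primes) (hSh : ShapiroInjSpec S)
    (hCD : CapDivSpec p S) (hHP : HassePrincipleSpec p) (I : LocalInvSystem) :
    HasseESpec p S := by
  intro _ hpS V hV x hx hp hloc
  obtain ⟨z, hz, hdz⟩ := exists_primitive p hHP I hV hx hp hloc
  exact hSh (sUnits S) V hV x hx (exists_sUnit_primitive p hCD hpS hV hx hp z hz hdz)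

end Fermat.Agent.S55.K.GO3H535

end
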