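import Fermat.Agent.S55.K.Spec
import Fermat.Agent.S55.G.Rec.Spec

/-!
# S55 / layer K / arithmetic input GO3 (`HasseESpec`) via the REC model   (helper535)

Route (no tower datum, no idèles):

  `hasseE_of : ShapiroInjSpec S → CapDivSpec p S → HassePrincipleSpec p → LocalInvSystem →
      HasseESpec p S`        (file `GO3H535/Main.lean`)

* evaluate a level-constant 2-cocycle `x` of `Ind_V 𝔼` at the coset `V`: a 2-cocycle `x'` of `V`
  with values in `𝔼 ⊂ ℚ̄ˣ`, i.e. a class `ξ ∈ gBr V = Br(K_V)` with `p ξ = 0`;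
* `ξ` is locally trivial at every place `(q, g)`:  `q ∉ S` by `inv_unram` + `inv_injective`
  (unit values, unramified level), `q ∈ S` by hypothesis + the conjugation homotopy;
* Hasse principle (`G.Rec.HassePrincipleSpec p`) ⇒ `x' = d z`, `z` a level cochain of `ℚ̄ˣ`;
* Hilbert 90 (landed `H844.exists_unit_of_levelCocycle844`) ⇒ `z` may be taken constant modulo
  an `S`-level;
* **`CapDivSpec`** (arithmetic leaf: capitulation of `p`-classes, Kummer) ⇒ `z` may be taken
  `S`-unit valued;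
* **`ShapiroInjSpec`** (formal leaf, = K-COL (d)) ⇒ `x` is a level-constant coboundary.

This file: the two leaf statements.  `def … : Prop` only, no `sorry`.
-/

set_option autoImplicit false

noncomputable section

namespace Fermat.Agent.S55.K.GO3H535

open groupCohomology Fermat.Agent.S55.PT Fermat.Agent.S55.Bridge

/-- `a ∈ ℚ̄ˣ` is `S`-smooth: fixed by some level `G_F`, `F/ℚ` finite unramified outside `S`. -/
def IsSm (S : Finset Nat.Primes) (a : Qbarˣ) : Prop :=
  ∃ U ∈ (globalLevels S).levels, ∀ s ∈ U, s • a = a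

/-- evaluation `Ind_V A → A` at a coset (`ℤ`-linear; equivariant for the stabiliser of the
coset). -/
def evAt (V : Subgroup GQ) (A : Rep.{0, 0, 0} ℤ GQ) (c : GQ ⧸ V) : indG V A →ₗ[ℤ] A :=
  Finsupp.lapply c

/-- **GO3-CAPDIV** (arithmetic leaf).  `V = G_K` a level, `β` an `S`-smooth element such that for
every `σ ∈ V` the element `σβ/β` is, up to an `S`-unit, the `p`-th power of an `S`-smooth
element (i.e. the `S`-divisor of `β` is `V`-invariant modulo `p`).  Then there is an `S`-smooth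
`α` with `(σα/α)^p ≡ σβ/β` modulo `S`-units for all `σ ∈ V`.

Proof sketch.  `F ∋ β` a Galois `S`-level, `D = div^S_F(β)`; `D mod p` is `Gal(F/K)`-invariant and
`F/K` is unramified outside `S`, so `D = ext(𝔠) + p𝔞`, `𝔠 ∈ Div^S(K)`.  `Cl_S(K)` is finite:
`p^a h' 𝔠 = div(κ)`, `κ ∈ Kˣ`, `p ∤ h'`.  `δ := κ^(1/p^a)` and `α₂ := (β^h'/δ)^(1/p)` are `S`-smooth
(Kummer, `p ∈ S`: their radicands have `S`-divisors divisible by `p^a`, resp. `p`);
`(σα₂/α₂)^p = (σβ/β)^h' · (δ/σδ)` and `δ/σδ ∈ μ_{p^a}`.  With `r h' + s p = 1`: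
`α := α₂^r β^s`. -/
def CapDivSpec (p : ℕ) [Fact p.Prime] (S : Finset Nat.Primes) : Prop :=
  ExtCitation.pPrime p ∈ S →
  ∀ V ∈ (globalLevels S).levels, ∀ β : Qbarˣ, IsSm S β →
    (∀ σ ∈ V, ∃ w : Qbarˣ, IsSm S w ∧ IsSUnit S (w ^ p / (σ • β / β))) →
    ∃ α : Qbarˣ, IsSm S α ∧ ∀ σ ∈ V, IsSUnit S ((σ • α / α) ^ p / (σ • β / β))

/-- **GO3-SHAP** (formal leaf = injectivity of Shapiro's map on level-constant `H²`).
If the evaluation at the coset `V` of a level-constant 2-cocycle `x` of `Ind_V A`, restricted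
to `V`, is the coboundary of a cochain `y : V → A` which is constant modulo a level, then `x` is
a level-constant coboundary.

Proof sketch.  `U ≤ V` a normal level modulo which `x`, `y` are constant; all values are
`U`-invariant (K-I3), `(Ind_V A)^U = Ind_{V/U}(A^U)`, finite Shapiro (landed `T.ShapiroExplicitSpec`)
for `V/U ≤ G/U`, inflate back. -/
def ShapiroInjSpec (S : Finset Nat.Primes) : Prop :=
  ∀ (A : Rep.{0, 0, 0} ℤ GQ), ∀ V ∈ (globalLevels S).levels,
    ∀ x ∈ (globalLevels S).Z2 (indG V A),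
    (∃ y : ↥V → A,
      (∃ U ∈ (globalLevels S).levels, U ≤ V ∧ ∀ v s : ↥V, (s : GQ) ∈ U → y (v * s) = y v) ∧
      ∀ v₁ v₂ : ↥V,
        evAt V A ((1 : GQ) : GQ ⧸ V) (x ((v₁ : GQ), (v₂ : GQ))) =
          A.ρ (v₁ : GQ) (y v₂) - y (v₁ * v₂) + y v₁) →
    x ∈ (globalLevels S).B2 (indG V A)

end Fermat.Agent.S55.K.GO3H535

end
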